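/-
S52, brick (C)-sigma0, part 1 (helper47): **`det ρ_{W,p} = χ_p` without the Weil pairing**, and
unipotence of inertia on `W[p]` for a semistable integral model `W`.

Input: the Eichler–Shimura relation on torsion (`TraceCong20.RelQbar`, a HYPOTHESIS here exactly as in
`S52/TopWiring84`), the generator form of Chebotarev (`ES/GAL/ChebQbar23`), the cyclotomic character
(`ES/J/CycloChar8`) and PART III of Programme Q (`ES/Q58/InertiaFinal98`: inertia at a multiplicative
prime fixes a nonzero point of `W[p]`).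

* `det_eq_of_rel`        : a non-scalar endomorphism of a plane killed by `X² - aX + l` has
                           determinant `l` (minimal polynomial = characteristic polynomial).
* `det_rho`              : if some element of `G_ℚ` acts on `W[p]` by a non-scalar (e.g. `W[p]`
                           irreducible), then `det ρ_{W,p}(σ) = c` whenever `σ ζ = ζ ^ c` on `μ_p`.
                           [Chebotarev: `φ ^ j = σ` on `ℚ(W[p], ζ_p)` for a Frobenius `φ` at a good
                           `ℓ ≠ p`; `ρ(φ)` is not scalar, so `det ρ(φ) = ℓ`; scalars are quotients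
                           of non-scalars.]
* `pow_smul_eq_of_fixed` : `τ` trivial on `μ_p` with a nonzero fixed vector in `W[p]` has `τ ^ p = 1`
                           on `W[p]`.
* `inertia_pow_smul_eq`  : for semistable `W` and `q ≠ p`, the `p`-th power of every inertia element
                           at `q` acts trivially on `W[p]`.
-/
import Mathlib
import Fermat.Agent.ES.Q58.TraceCong20
import Fermat.Agent.ES.Q58.InertiaFinal98
import Fermat.Agent.ES.GAL.ChebQbar23
import Fermat.Agent.ES.J.CycloChar8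
import Fermat.Agent.S52.TopWiring84

set_option autoImplicit false

open WeierstrassCurve WeierstrassCurve.Affine WeierstrassCurve.Affine.Point

namespace Fermat.Agent.S52.C.DetCyclo47

open Polynomial

section LinAlg

variable {F : Type*} [Field F] {V : Type*} [AddCommGroup V] [Module F V]

/-- A non-scalar endomorphism of a plane killed by `X² - aX + l` has characteristic polynomial
`X² - aX + l`. -/
theorem charpoly_eq_of_rel [Module.Finite F V] (hV : Module.finrank F V = 2) (f : V →ₗ[F] V)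
    (a l : F) (hrel : f * f - a • f + l • (1 : V →ₗ[F] V) = 0)
    (hns : ¬ ∃ c : F, f = c • (1 : V →ₗ[F] V)) :
    f.charpoly = X ^ 2 - C a * X + C l := by
  have hnt : Nontrivial V := Module.nontrivial_of_finrank_pos (R := F) (by rw [hV]; norm_num)
  set P : F[X] := X ^ 2 - C a * X + C l with hP
  have hPmonic : P.Monic := by
    rw [hP]
    have : (X ^ 2 - C a * X + C l : F[X]) = X ^ 2 + (- C a * X + C l) := by ring
    rw [this]
    apply Polynomial.monic_X_pow_add
    have h1 : (-C a * X + C l : F[X]).degree ≤ 1 := by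
      have : (-C a * X + C l : F[X]) = C (-a) * X + C l := by simp
      rw [this]
      exact Polynomial.degree_linear_le
    exact lt_of_le_of_lt h1 (by norm_num)
  have hPdeg : P.natDegree = 2 := by
    rw [hP]
    have : (X ^ 2 - C a * X + C l : F[X]) = X ^ 2 + (- C a * X + C l) := by ring
    rw [this]
    have h1 : (-C a * X + C l : F[X]).degree ≤ 1 := by
      have : (-C a * X + C l : F[X]) = C (-a) * X + C l := by simp
      rw [this]
      exact Polynomial.degree_linear_le
    have h2 : (-C a * X + C l : F[X]).degree < ((X : F[X]) ^ 2).degree := by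
      rw [Polynomial.degree_X_pow]
      exact lt_of_le_of_lt h1 (by norm_num)
    rw [Polynomial.natDegree_add_eq_left_of_degree_lt h2, Polynomial.natDegree_X_pow]
  have hPf : aeval f P = 0 := by
    rw [hP]
    simp only [map_add, map_sub, map_mul, map_pow, aeval_X, aeval_C]
    rw [← hrel, pow_two]
    simp [Algebra.algebraMap_eq_smul_one]
  have hint : IsIntegral F f := LinearMap.isIntegral f
  have hmm : (minpoly F f).Monic := minpoly.monic hint
  have hdvdP : minpoly F f ∣ P := minpoly.dvd F f hPf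
  have hdvdC : minpoly F f ∣ f.charpoly := LinearMap.minpoly_dvd_charpoly f
  have hCmonic : f.charpoly.Monic := LinearMap.charpoly_monic f
  have hCdeg : f.charpoly.natDegree = 2 := by rw [LinearMap.charpoly_natDegree, hV]
  -- the minimal polynomial has degree at least two
  have hdeg : 2 ≤ (minpoly F f).natDegree := by
    by_contra hlt
    have hpos : 0 < (minpoly F f).natDegree := minpoly.natDegree_pos hint
    have h1 : (minpoly F f).natDegree = 1 := by omega
    have hform := hmm.eq_X_add_C h1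
    have hzero : aeval f (minpoly F f) = 0 := minpoly.aeval F f
    rw [hform] at hzero
    simp only [map_add, aeval_X, aeval_C] at hzero
    apply hns
    refine ⟨-(minpoly F f).coeff 0, ?_⟩
    rw [neg_smul, ← Algebra.algebraMap_eq_smul_one]
    exact eq_neg_of_add_eq_zero_left hzero
  have e1 : P = minpoly F f :=
    Polynomial.eq_of_monic_of_dvd_of_natDegree_le hmm hPmonic hdvdP (by rw [hPdeg]; exact hdeg)
  have e2 : f.charpoly = minpoly F f :=
    Polynomial.eq_of_monic_of_dvd_of_natDegree_le hmm hCmonic hdvdC (by rw [hCdeg]; exact hdeg)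
  rw [e2, ← e1]

/-- ... and determinant `l`. -/
theorem det_eq_of_rel (hV : Module.finrank F V = 2) (f : V →ₗ[F] V) (a l : F)
    (hrel : f * f - a • f + l • (1 : V →ₗ[F] V) = 0)
    (hns : ¬ ∃ c : F, f = c • (1 : V →ₗ[F] V)) :
    LinearMap.det f = l := by
  have hfin : Module.Finite F V := Module.finite_of_finrank_pos (by rw [hV]; norm_num)
  rw [LinearMap.det_eq_sign_charpoly_coeff, hV, charpoly_eq_of_rel hV f a l hrel hns]
  simp

/-- An endomorphism of a plane with determinant one and a nonzero fixed vector is unipotent. -/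
theorem sub_one_sq_eq_zero (hV : Module.finrank F V = 2) (f : V →ₗ[F] V)
    (hdet : LinearMap.det f = 1) {v : V} (hv : v ≠ 0) (hfv : f v = v) :
    (f - 1) * (f - 1) = 0 := by
  have hfin : Module.Finite F V := Module.finite_of_finrank_pos (by rw [hV]; norm_num)
  have hCmonic : f.charpoly.Monic := LinearMap.charpoly_monic f
  have hCdeg : f.charpoly.natDegree = 2 := by rw [LinearMap.charpoly_natDegree, hV]
  have hc0 : f.charpoly.coeff 0 = 1 := by
    have := LinearMap.det_eq_sign_charpoly_coeff f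
    rw [hV, hdet] at this
    simpa using this.symm
  have hsum := hCmonic.as_sum
  rw [hCdeg, Finset.sum_range_succ, Finset.sum_range_one, hc0] at hsum
  set b := f.charpoly.coeff 1 with hb
  have hCH : aeval f f.charpoly = 0 := LinearMap.aeval_self_charpoly f
  rw [hsum] at hCH
  simp only [map_add, map_mul, map_pow, aeval_X, aeval_C, pow_zero, pow_one, map_one,
    mul_one] at hCH
  -- evaluate at the fixed vector
  have hv2 := congrArg (fun g : V →ₗ[F] V => g v) hCH
  simp only [LinearMap.add_apply, Module.End.mul_apply, LinearMap.zero_apply, pow_two,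
    Module.End.one_apply, hfv, Module.algebraMap_end_apply] at hv2
  have hb2 : (1 + (1 + b)) • v = 0 := by
    rw [add_smul, add_smul, one_smul]
    exact hv2
  have hb' : b = -2 := by
    rcases smul_eq_zero.mp hb2 with h | h
    · linear_combination h
    · exact absurd h hv
  rw [hb'] at hCH
  have : (f - 1) * (f - 1) = f ^ 2 + (1 + (algebraMap F (Module.End F V)) (-2) * f) := by
    rw [map_neg, map_ofNat]
    noncomm_ring
  rw [this]
  exact hCH

/-- ... hence of order dividing the characteristic. -/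
theorem pow_char_eq_one (p : ℕ) [CharP F p] (f : V →ₗ[F] V) (hN : (f - 1) * (f - 1) = 0) :
    f ^ p = 1 := by
  have key : ∀ N : V →ₗ[F] V, N * N = 0 → ∀ k : ℕ, (1 + N) ^ k = 1 + k • N := by
    intro N hN k
    induction k with
    | zero => simp
    | succ k ih =>
      rw [pow_succ, ih, mul_add, mul_one, add_mul, one_mul, smul_mul_assoc, hN, smul_zero,
        add_zero, succ_nsmul]
      abel
  have hf : f = 1 + (f - 1) := by abel
  rw [hf, key (f - 1) hN p]
  have : (p : ℕ) • (f - 1) = ((p : F)) • (f - 1) := by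
    rw [Nat.cast_smul_eq_nsmul]
  rw [this, CharP.cast_eq_zero, zero_smul, add_zero]

end LinAlg

open Fermat.Agent.ES.Q58.TraceCong20 (RelQbar)
open Fermat.Agent.S52.TopWiring84 (Tors finrank_tors nontrivial_tors rel_tors)
open Fermat.Agent.ES.J.CycloChar8 (cyclo cyclo_spec)

local notation "Qb" => AlgebraicClosure ℚ
local notation "GQ" => (AlgebraicClosure ℚ ≃ₐ[ℚ] AlgebraicClosure ℚ)

/-! ### Exponents on the `p`-th roots of unity -/

section Cyclo

/-- `σ` raises every `p`-th root of unity to the power `c`. -/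
def IsCycloExp (p : ℕ) (σ : GQ) (c : ℕ) : Prop := ∀ ζ : Qb, ζ ^ p = 1 → σ ζ = ζ ^ c

variable {p : ℕ}

theorem IsCycloExp.mul {σ τ : GQ} {c d : ℕ} (hσ : IsCycloExp p σ c) (hτ : IsCycloExp p τ d) :
    IsCycloExp p (σ * τ) (c * d) := by
  intro ζ hζ
  rw [AlgEquiv.mul_apply, hτ ζ hζ, map_pow, hσ ζ hζ, ← pow_mul]

theorem IsCycloExp.one : IsCycloExp p 1 1 := fun ζ _ => by simp

theorem IsCycloExp.pow {σ : GQ} {c : ℕ} (hσ : IsCycloExp p σ c) (j : ℕ) :
    IsCycloExp p (σ ^ j) (c ^ j) := by
  induction j with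
  | zero => simpa using (IsCycloExp.one (p := p))
  | succ j ih =>
    rw [pow_succ, pow_succ]
    exact ih.mul hσ

theorem IsCycloExp.congr {σ τ : GQ} {c : ℕ} (h : ∀ ζ : Qb, ζ ^ p = 1 → σ ζ = τ ζ)
    (hσ : IsCycloExp p σ c) : IsCycloExp p τ c := fun ζ hζ => by rw [← h ζ hζ, hσ ζ hζ]

theorem IsCycloExp.exists (p : ℕ) [Fact p.Prime] (σ : GQ) : ∃ c, IsCycloExp p σ c :=
  ⟨((cyclo p σ : ℤ_[p]).toZModPow 1).val, fun ζ hζ => cyclo_spec p σ ζ (by rwa [pow_one])⟩

/-- two exponents of the same automorphism agree modulo `p`. -/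
theorem IsCycloExp.cast_eq [hp : Fact p.Prime] {σ : GQ} {c d : ℕ} (hc : IsCycloExp p σ c)
    (hd : IsCycloExp p σ d) : (c : ZMod p) = (d : ZMod p) := by
  obtain ⟨ζ, hζ⟩ := Fermat.Agent.ES.J.CycloChar8.exists_primitiveRoot p 1
  rw [pow_one] at hζ
  have h : ζ ^ c = ζ ^ d := by rw [← hc ζ hζ.pow_eq_one, ← hd ζ hζ.pow_eq_one]
  exact (ZMod.natCast_eq_natCast_iff _ _ _).mpr
    (Fermat.Agent.ES.J.CycloChar8.modEq_of_pow_eq_pow hζ hp.out.ne_zero h)

/-- a Frobenius element at `ℓ ≠ p` raises the `p`-th roots of unity to the power `ℓ`. -/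
theorem IsCycloExp.of_frobenius [hp : Fact p.Prime] {ℓ : ℕ} (hℓ : ℓ.Prime) (hℓp : ℓ ≠ p)
    (A : ValuationSubring Qb) (hA : A.LiesOverPrime ℓ) {φ : GQ} (hφ : A.IsFrobeniusAt φ ℓ) :
    IsCycloExp p φ ℓ := by
  intro ζ hζ
  have hζ1 : ζ ^ p ^ 1 = 1 := by rwa [pow_one]
  have h1 := cyclo_spec p φ ζ hζ1
  rw [Fermat.Agent.ES.J.CycloChar8.cyclo_of_isFrobeniusAt p hℓ hℓp A hA hφ, map_natCast,
    ZMod.val_natCast, ← pow_eq_pow_mod ℓ hζ1] at h1
  exact h1

/-- an inertia element at `q ≠ p` fixes the `p`-th roots of unity. -/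
theorem IsCycloExp.of_inertia [hp : Fact p.Prime] {q : ℕ} (hq : q.Prime) (hqp : q ≠ p)
    (A : ValuationSubring Qb) (hA : A.LiesOverPrime q) {τ : GQ}
    (hτ : τ ∈ A.inertiaSubgroupIn ℚ) : IsCycloExp p τ 1 := by
  intro ζ hζ
  have hζ1 : ζ ^ p ^ 1 = 1 := by rwa [pow_one]
  have h1 := cyclo_spec p τ ζ hζ1
  rw [Fermat.Agent.ES.J.CycloChar8.cyclo_of_mem_inertia p hq hqp A hA hτ, Units.val_one, map_one,
    ZMod.val_one_eq_one_mod, ← pow_eq_pow_mod 1 hζ1] at h1
  exact h1

end Cyclo

/-! ### The representation on `W[p]` -/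

section Rep

variable (W : WeierstrassCurve ℤ) (p : ℕ)

/-- the action of `G_ℚ` on `W[p](ℚ̄)` by `𝔽_p`-linear maps. -/
noncomputable def rho : GQ →* Module.End (ZMod p) (Tors W p) where
  toFun σ := (DistribSMul.toAddMonoidHom (Tors W p) σ).toZModLinearMap p
  map_one' := LinearMap.ext fun x => one_smul GQ x
  map_mul' σ τ := LinearMap.ext fun x => mul_smul σ τ x

@[simp] theorem rho_apply (σ : GQ) (x : Tors W p) : rho W p σ x = σ • x := rfl

/-- "acts through a scalar". -/
def IsScalarOn (σ : GQ) : Prop := ∃ c : ZMod p, rho W p σ = c • (1 : Module.End (ZMod p) (Tors W p))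

variable {W p}

/-- an irreducible `W[p]` has a non-scalar element in the image. -/
theorem exists_not_isScalarOn [hp : Fact p.Prime] (hp2 : p ≠ 2) (hΔ : W.Δ ≠ 0)
    (hirr : W.ModRepIsIrreducible p) : ∃ τ : GQ, ¬ IsScalarOn W p τ := by
  by_contra hcon
  push Not at hcon
  have h2 := finrank_tors hΔ hp2
  have := nontrivial_tors hΔ hp2
  obtain ⟨v, hv⟩ := exists_ne (0 : Tors W p)
  set N : Submodule (ZMod p) (Tors W p) := Submodule.span (ZMod p) {v} with hN
  have hstable : ∀ (σ : GQ), ∀ x ∈ N, σ • x ∈ N := by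
    intro σ x hx
    obtain ⟨c, hc⟩ := hcon σ
    have : σ • x = c • x := by
      have := congrArg (fun f : Module.End (ZMod p) (Tors W p) => f x) hc
      simpa using this
    rw [this]
    exact N.smul_mem c hx
  rcases hirr.2 N hstable with h | h
  · apply hv
    have : v ∈ N := Submodule.mem_span_singleton_self v
    rw [h] at this
    exact (Submodule.mem_bot _).mp this
  · have h1 : Module.finrank (ZMod p) N = 1 := finrank_span_singleton hv
    rw [h, finrank_top, h2] at h1
    omega

end Rep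

/-! ### The determinant -/

section Det

variable {W : WeierstrassCurve ℤ} {p : ℕ} [hp : Fact p.Prime]

/-- the finite set of `p`-torsion points. -/
theorem torsion_set_finite (hp2 : p ≠ 2) :
    {Q : ((W.map (Int.castRingHom ℚ))⁄Qb).Point | p • Q = 0}.Finite := by
  have hodd : Odd p := hp.out.odd_of_ne_two hp2
  have hpF : ((p : ℕ) : Qb) ≠ 0 := Nat.cast_ne_zero.mpr hp.out.ne_zero
  exact (Fermat.Agent.DivPoly.A1Final.torsion_finite_ncard_le
    (W := ((W.map (Int.castRingHom ℚ))⁄Qb)) hodd hpF).1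

omit hp in
theorem nsmul_coe_eq_zero (x : Tors W p) :
    p • (x : ((W.map (Int.castRingHom ℚ))⁄Qb).Point) = 0 := by
  have := x.2
  rw [Submodule.mem_torsionBy_iff] at this
  rw [← natCast_zsmul]
  exact this

/-- **Determinant of a non-scalar element.** -/
theorem det_rho_of_not_isScalarOn (hΔ : W.Δ ≠ 0) (hrel : RelQbar W) (hp2 : p ≠ 2) (σ : GQ)
    (hns : ¬ IsScalarOn W p σ) {c : ℕ} (hc : IsCycloExp p σ c) :
    LinearMap.det (rho W p σ) = (c : ZMod p) := by
  classical
  have hV := finrank_tors (W := W) hΔ hp2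
  -- the field of definition of `W[p]` and of `μ_p`
  obtain ⟨K, hKfin, hK⟩ := Fermat.Agent.ES.Q58.TraceCong20.exists_field
    (E := W.map (Int.castRingHom ℚ)) _ (torsion_set_finite (W := W) (p := p) hp2)
  obtain ⟨ζ, hζ⟩ := Fermat.Agent.ES.J.CycloChar8.exists_primitiveRoot p 1
  rw [pow_one] at hζ
  have hζint : IsIntegral ℚ ζ :=
    (Fermat.Agent.Lib.FrobeniusExists.isIntegral_Qbar).isIntegral ζ
  have hfinζ : FiniteDimensional ℚ (IntermediateField.adjoin ℚ {ζ}) :=
    IntermediateField.adjoin.finiteDimensional hζint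
  set L : IntermediateField ℚ Qb := K ⊔ IntermediateField.adjoin ℚ {ζ} with hL
  have hLfin : FiniteDimensional ℚ L := IntermediateField.finiteDimensional_sup K _
  have hKL : K ≤ L := le_sup_left
  have hζL : ζ ∈ L :=
    (le_sup_right : IntermediateField.adjoin ℚ {ζ} ≤ L)
      (IntermediateField.mem_adjoin_simple_self ℚ ζ)
  -- a Frobenius element generating the same group as `σ` on `L`
  obtain ⟨ℓ, A, φ, j, hℓ, hℓT, hA, hφ, hpow⟩ :=
    Fermat.Agent.ES.GAL.ChebQbar23.exists_frobenius_pow_eq_on L σ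
      (insert p W.Δ.natAbs.primeFactors)
  have hℓp : ℓ ≠ p := fun h => hℓT (by rw [h]; exact Finset.mem_insert_self _ _)
  have hgood : W.IsGoodPrimeFor ℓ := by
    intro hdvd
    apply hℓT
    refine Finset.mem_insert_of_mem (Nat.mem_primeFactors.mpr ⟨hℓ, ?_, ?_⟩)
    · exact Int.natCast_dvd.mp hdvd
    · exact Int.natAbs_ne_zero.mpr hΔ
  -- `ρ(σ) = ρ(φ) ^ j`
  have hρ : rho W p σ = rho W p φ ^ j := by
    rw [← map_pow]
    refine LinearMap.ext fun x => ?_
    rw [rho_apply, rho_apply]
    apply Subtype.ext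
    exact (hK (φ ^ j) σ (fun y hy => hpow y (hKL hy)) _ (nsmul_coe_eq_zero x)).symm
  -- `ρ(φ)` is not a scalar
  have hnsφ : ¬ ∃ a : ZMod p, rho W p φ = a • (1 : Module.End (ZMod p) (Tors W p)) := by
    rintro ⟨a, ha⟩
    apply hns
    refine ⟨a ^ j, ?_⟩
    rw [hρ, ha, _root_.smul_pow, one_pow]
  -- the Eichler–Shimura relation for `ρ(φ)`
  have hrelφ : rho W p φ * rho W p φ - (W.apOfModel ℓ : ZMod p) • rho W p φ
      + (ℓ : ZMod p) • (1 : Module.End (ZMod p) (Tors W p)) = 0 := by
    refine LinearMap.ext fun x => ?_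
    have h := rel_tors hrel hp2 hℓ hgood hℓp hA hφ x
    rw [← Int.cast_smul_eq_zsmul (ZMod p), ← Nat.cast_smul_eq_nsmul (ZMod p)] at h
    simpa using h
  have hdetφ : LinearMap.det (rho W p φ) = (ℓ : ZMod p) :=
    det_eq_of_rel hV (rho W p φ) _ _ hrelφ hnsφ
  -- exponents
  have hexp : IsCycloExp p σ (ℓ ^ j) := by
    refine IsCycloExp.congr (fun η hη => ?_) ((IsCycloExp.of_frobenius hℓ hℓp A hA hφ).pow j)
    obtain ⟨k, -, rfl⟩ := hζ.eq_pow_of_pow_eq_one hη
    exact hpow _ (pow_mem hζL k)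
  rw [hρ, map_pow, hdetφ, hc.cast_eq hexp, Nat.cast_pow]

/-- **`det ρ_{W,p} = χ_p`**, provided the image of `ρ_{W,p}` is not contained in the scalars. -/
theorem det_rho (hΔ : W.Δ ≠ 0) (hrel : RelQbar W) (hp2 : p ≠ 2)
    (hns : ∃ τ : GQ, ¬ IsScalarOn W p τ) (σ : GQ) {c : ℕ} (hc : IsCycloExp p σ c) :
    LinearMap.det (rho W p σ) = (c : ZMod p) := by
  by_cases hσ : IsScalarOn W p σ
  · obtain ⟨τ, hτ⟩ := hns
    obtain ⟨a, ha⟩ := hσ
    obtain ⟨d, hd⟩ := IsCycloExp.exists p τ
    have := nontrivial_tors (W := W) hΔ hp2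
    -- `σ τ` is not a scalar
    have hστ : ¬ IsScalarOn W p (σ * τ) := by
      rintro ⟨b, hb⟩
      apply hτ
      have ha0 : a ≠ 0 := by
        rintro rfl
        have h1 : rho W p σ * rho W p σ⁻¹ = 1 := by rw [← map_mul, mul_inv_cancel, map_one]
        rw [ha, zero_smul, zero_mul] at h1
        obtain ⟨v, hv⟩ := exists_ne (0 : Tors W p)
        apply hv
        have := congrArg (fun f : Module.End (ZMod p) (Tors W p) => f v) h1
        simpa using this.symm
      refine ⟨a⁻¹ * b, ?_⟩
      have h1 : a • rho W p τ = b • (1 : Module.End (ZMod p) (Tors W p)) := by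
        rw [← hb, map_mul, ha, smul_mul_assoc, one_mul]
      rw [mul_smul, ← h1, smul_smul, inv_mul_cancel₀ ha0, one_smul]
    have h1 := det_rho_of_not_isScalarOn hΔ hrel hp2 (σ * τ) hστ (hc.mul hd)
    have h2 := det_rho_of_not_isScalarOn hΔ hrel hp2 τ hτ hd
    rw [map_mul, map_mul, h2, Nat.cast_mul] at h1
    have hd0 : (d : ZMod p) ≠ 0 := by
      intro h0
      have h3 : LinearMap.det (rho W p τ) * LinearMap.det (rho W p τ⁻¹) = 1 := by
        rw [← map_mul, ← map_mul, mul_inv_cancel, map_one, map_one]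
      rw [h2, h0, zero_mul] at h3
      exact zero_ne_one h3
    exact mul_right_cancel₀ hd0 h1
  · exact det_rho_of_not_isScalarOn hΔ hrel hp2 σ hσ hc

/-- **Unipotence**: an element of `G_ℚ` which is trivial on `μ_p` and fixes a nonzero point of
`W[p]` has its `p`-th power acting trivially on `W[p]`. -/
theorem pow_smul_eq_of_fixed (hΔ : W.Δ ≠ 0) (hrel : RelQbar W) (hp2 : p ≠ 2)
    (hns : ∃ τ : GQ, ¬ IsScalarOn W p τ) (τ : GQ) (hτ : IsCycloExp p τ 1) {v : Tors W p}
    (hv : v ≠ 0) (hfix : τ • v = v) (x : Tors W p) : (τ ^ p) • x = x := by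
  have hV := finrank_tors (W := W) hΔ hp2
  have hdet : LinearMap.det (rho W p τ) = 1 := by
    rw [det_rho hΔ hrel hp2 hns τ hτ, Nat.cast_one]
  have hN := sub_one_sq_eq_zero hV (rho W p τ) hdet hv hfix
  have hpow := pow_char_eq_one p (rho W p τ) hN
  rw [← map_pow] at hpow
  have := congrArg (fun f : Module.End (ZMod p) (Tors W p) => f x) hpow
  exact this

/-- **Inertia at `q ≠ p` acts on `W[p]` through a group of exponent `p`**, for a semistable
integral model `W` (with non-scalar image on `W[p]`). -/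
theorem inertia_pow_smul_eq (hΔ : W.Δ ≠ 0) (hss : W.IsSemistableModel) (hrel : RelQbar W)
    (hp2 : p ≠ 2) (hns : ∃ τ : GQ, ¬ IsScalarOn W p τ) {q : ℕ} (hq : q.Prime) (hqp : q ≠ p)
    (A : ValuationSubring Qb) (hA : A.LiesOverPrime q) {τ : GQ}
    (hτ : τ ∈ A.inertiaSubgroupIn ℚ) (x : Tors W p) : (τ ^ p) • x = x := by
  classical
  -- PART III: at least `p` fixed points killed by `p`
  obtain ⟨S, hcard, hkill, hfix⟩ :
      ∃ S : Finset ((W.map (Int.castRingHom ℚ))⁄Qb).Point, p ^ 1 ≤ S.card ∧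
        (∀ Q ∈ S, p ^ 1 • Q = 0) ∧
        ∀ τ ∈ A.inertiaSubgroupIn ℚ, ∀ Q ∈ S, τ • Q = Q := by
    by_cases hgood : W.IsGoodPrimeFor q
    · exact Fermat.Agent.ES.Q58.InertiaAsm98.exists_fixed_torsion_good W hΔ hq hgood hp.out hp2
        (Ne.symm hqp) 1 A hA
    · have hqD : (q : ℤ) ∣ W.Δ := not_not.mp hgood
      exact Fermat.Agent.ES.Q58.InertiaFinal98.multFix W hΔ hq hqD (hss q hq hqD) hp.out hp2
        (Ne.symm hqp) 1 A hA
  rw [pow_one] at hcard
  have h1 : 1 < S.card := lt_of_lt_of_le hp.out.one_lt hcard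
  obtain ⟨Q, hQS, hQ0⟩ := Finset.exists_mem_ne h1 0
  have hQp : p • Q = 0 := by
    have := hkill Q hQS
    rwa [pow_one] at this
  have hQmem : Q ∈ Submodule.torsionBy ℤ ((W.map (Int.castRingHom ℚ))⁄Qb).Point p := by
    rw [Submodule.mem_torsionBy_iff, natCast_zsmul]
    exact hQp
  refine pow_smul_eq_of_fixed hΔ hrel hp2 hns τ (IsCycloExp.of_inertia hq hqp A hA hτ)
    (v := ⟨Q, hQmem⟩) (fun h => hQ0 (congrArg Subtype.val h)) ?_ x
  apply Subtype.ext
  exact hfix τ hτ Q hQS

end Det

end Fermat.Agent.S52.C.DetCyclo47
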