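/-
S52 (3-5 switch), brick (C2) (helper62): **generic absence of a rational 3-isogeny in a
one-parameter family** `y² = x³ + A(t) x + B(t)`, purely algebraic, Mathlib only.

`psi3 A B X = 3X⁴ + 6AX² + 12BX - A²` is the 3-division polynomial.  Over an algebraically closed
field `K` of characteristic zero, if `A, B : K[t]` are coprime, `D = 4A³ + 27B² ≠ 0`, no root of `D`
has multiplicity divisible by `3`, and `4 deg D ≠ 3 deg A`, then `psi3 A B X ≠ 0` for all `X : K[t]`.

Proof: with `g = 3X² + A`, `w = X³ + AX + B` one has `psi3 = 12 X w - g²` and the ring identity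
`2 D = 54 w² - g³ - (9 g - 18 X²) psi3`.  If `psi3 = 0`, a root `c` of `w` is a root of `g` with
`X(c) ≠ 0`, `mult_c w = 2 mult_c g`, hence `mult_c D = 3 mult_c g`: excluded.  So `w` is a nonzero
constant, `X = g²/(12w)`, `A = g - g⁴/(48w²)`, `deg A = 4 deg g`, `deg D = 3 deg g`: excluded.
-/
import Mathlib

set_option autoImplicit false

namespace Fermat.Agent.S52.C.NoThreeIsog62

open Polynomial

/-- The 3-division polynomial of `y² = x³ + A x + B` evaluated at `X`. -/
def psi3 {R : Type*} [CommRing R] (A B X : R) : R :=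
  3 * X ^ 4 + 6 * A * X ^ 2 + 12 * B * X - A ^ 2

theorem psi3_eq {R : Type*} [CommRing R] (A B X : R) :
    psi3 A B X = 12 * X * (X ^ 3 + A * X + B) - (3 * X ^ 2 + A) ^ 2 := by
  unfold psi3; ring

/-- The key ring identity: the discriminant in terms of `g = 3X² + A`, `w = X³ + AX + B`. -/
theorem key_identity {R : Type*} [CommRing R] (A B X : R) :
    2 * (4 * A ^ 3 + 27 * B ^ 2) =
      54 * (X ^ 3 + A * X + B) ^ 2 - (3 * X ^ 2 + A) ^ 3
        - (9 * (3 * X ^ 2 + A) - 18 * X ^ 2) * psi3 A B X := by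
  unfold psi3; ring

theorem psi3_map {R S : Type*} [CommRing R] [CommRing S] (f : R →+* S) (A B X : R) :
    f (psi3 A B X) = psi3 (f A) (f B) (f X) := by
  unfold psi3; simp [map_sub, map_add, map_mul, map_pow, map_ofNat]

section Field

variable {K : Type*} [Field K]

theorem rootMultiplicity_pow_eq (p : K[X]) (hp : p ≠ 0) (c : K) (n : ℕ) :
    rootMultiplicity c (p ^ n) = n * rootMultiplicity c p := by
  induction n with
  | zero => simp
  | succ n ih =>
    rw [pow_succ, rootMultiplicity_mul (mul_ne_zero (pow_ne_zero n hp) hp), ih]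
    ring

theorem rootMultiplicity_C_mul_eq (p : K[X]) (a : K) (ha : a ≠ 0) (c : K) :
    rootMultiplicity c (C a * p) = rootMultiplicity c p := by
  by_cases hp : p = 0
  · simp [hp]
  · rw [rootMultiplicity_mul (mul_ne_zero (C_ne_zero.mpr ha) hp), rootMultiplicity_C, zero_add]

/-- If `mult_c p < mult_c q` then `mult_c (q - p) = mult_c p`. -/
theorem rootMultiplicity_sub_of_lt {p q : K[X]} (hp : p ≠ 0) (c : K)
    (hlt : rootMultiplicity c p < rootMultiplicity c q) (_hq : q ≠ 0) :
    rootMultiplicity c (q - p) = rootMultiplicity c p := by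
  have hne : q - p ≠ 0 := by
    intro h
    rw [sub_eq_zero] at h
    rw [h] at hlt
    exact lt_irrefl _ hlt
  apply le_antisymm
  · rw [rootMultiplicity_le_iff hne]
    intro hdvd
    have h1 : (X - C c) ^ (rootMultiplicity c p + 1) ∣ q :=
      (pow_dvd_pow _ hlt).trans (pow_rootMultiplicity_dvd q c)
    have h2 : (X - C c) ^ (rootMultiplicity c p + 1) ∣ p := by
      have := dvd_sub h1 hdvd
      simpa using this
    exact pow_rootMultiplicity_not_dvd hp c h2
  · rw [le_rootMultiplicity_iff hne]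
    exact dvd_sub ((pow_dvd_pow _ hlt.le).trans (pow_rootMultiplicity_dvd q c))
      (pow_rootMultiplicity_dvd p c)

end Field

section Main

variable {K : Type*} [Field K] [IsAlgClosed K] [CharZero K]

/-- **Generic absence of a 3-isogeny.** -/
theorem psi3_ne_zero (A B : K[X]) (hcop : IsCoprime A B)
    (hD : 4 * A ^ 3 + 27 * B ^ 2 ≠ 0)
    (hmult : ∀ c : K, (4 * A ^ 3 + 27 * B ^ 2).IsRoot c →
      ¬ 3 ∣ rootMultiplicity c (4 * A ^ 3 + 27 * B ^ 2))
    (hdeg : 4 * (4 * A ^ 3 + 27 * B ^ 2).natDegree ≠ 3 * A.natDegree)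
    (Y : K[X]) : psi3 A B Y ≠ 0 := by
  intro hψ
  set g : K[X] := 3 * Y ^ 2 + A with hg
  set w : K[X] := Y ^ 3 + A * Y + B with hw
  set D : K[X] := 4 * A ^ 3 + 27 * B ^ 2 with hDdef
  have h1 : g ^ 2 = 12 * Y * w := by
    have := psi3_eq A B Y
    rw [hψ] at this
    linear_combination this
  have h2 : 2 * D = 54 * w ^ 2 - g ^ 3 := by
    have := key_identity A B Y
    rw [hψ, mul_zero, sub_zero] at this
    exact this
  have h2ne : (2 : K[X]) ≠ 0 := by
    have : (2 : K[X]) = C 2 := (map_ofNat C 2).symm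
    rw [this]; exact C_ne_zero.mpr two_ne_zero
  -- `w ≠ 0`
  have hw0 : w ≠ 0 := by
    intro h0
    have hg0 : g = 0 := by
      have : g ^ 2 = 0 := by rw [h1, h0, mul_zero]
      exact pow_eq_zero_iff (two_ne_zero) |>.mp this
    have : 2 * D = 0 := by rw [h2, h0, hg0]; ring
    rcases mul_eq_zero.mp this with h | h
    · exact h2ne h
    · exact hD h
  -- Step 1: `w` has no root.
  have hnoroot : ∀ c : K, ¬ w.IsRoot c := by
    intro c hc
    have hwc : w.eval c = 0 := hc
    have hgc : g.eval c = 0 := by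
      have := congrArg (eval c) h1
      simp only [eval_pow, eval_mul, hwc, mul_zero] at this
      exact pow_eq_zero_iff (two_ne_zero) |>.mp this
    have hYc : Y.eval c ≠ 0 := by
      intro hY0
      have hAc : A.eval c = 0 := by
        have := hgc
        simp only [hg, eval_add, eval_mul, eval_pow, hY0] at this
        simpa using this
      have hBc : B.eval c = 0 := by
        have := hwc
        simp only [hw, eval_add, eval_mul, eval_pow, hY0, hAc] at this
        simpa using this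
      obtain ⟨u, v, huv⟩ := hcop
      have := congrArg (eval c) huv
      simp [hAc, hBc] at this
    have hY0 : Y ≠ 0 := by
      intro h; apply hYc; simp [h]
    have hg0 : g ≠ 0 := by
      intro h0
      have : 12 * Y * w = 0 := by rw [← h1, h0]; ring
      have h12 : (12 : K[X]) ≠ 0 := by
        have : (12 : K[X]) = C 12 := (map_ofNat C 12).symm
        rw [this]; exact C_ne_zero.mpr (by norm_num)
      rcases mul_eq_zero.mp this with h | h
      · rcases mul_eq_zero.mp h with h | h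
        · exact h12 h
        · exact hY0 h
      · exact hw0 h
    set α := rootMultiplicity c g with hα
    set β := rootMultiplicity c w with hβ
    have hαpos : 0 < α := (rootMultiplicity_pos hg0).mpr hgc
    have hβpos : 0 < β := (rootMultiplicity_pos hw0).mpr hwc
    have hβ2 : β = 2 * α := by
      have hl : rootMultiplicity c (g ^ 2) = 2 * α := rootMultiplicity_pow_eq g hg0 c 2
      have h12Y : (12 * Y : K[X]) ≠ 0 := by
        have h12 : (12 : K[X]) ≠ 0 := by
          have : (12 : K[X]) = C 12 := (map_ofNat C 12).symm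
          rw [this]; exact C_ne_zero.mpr (by norm_num)
        exact mul_ne_zero h12 hY0
      have hr : rootMultiplicity c (12 * Y * w) = β := by
        rw [rootMultiplicity_mul (mul_ne_zero h12Y hw0)]
        have : rootMultiplicity c (12 * Y : K[X]) = 0 := by
          apply rootMultiplicity_eq_zero
          intro hroot
          have : (12 * Y : K[X]).eval c = 0 := hroot
          simp only [eval_mul, eval_ofNat] at this
          rcases mul_eq_zero.mp this with h | h
          · norm_num at h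
          · exact hYc h
        rw [this, zero_add]
      rw [h1] at hl
      rw [← hr, hl]
    have hm : rootMultiplicity c (54 * w ^ 2 - g ^ 3) = 3 * α := by
      have h54 : (54 : K[X]) = C 54 := (map_ofNat C 54).symm
      have hq : (54 * w ^ 2 : K[X]) ≠ 0 := by
        rw [h54]
        exact mul_ne_zero (C_ne_zero.mpr (by norm_num)) (pow_ne_zero 2 hw0)
      have hp : g ^ 3 ≠ 0 := pow_ne_zero 3 hg0
      have hmp : rootMultiplicity c (g ^ 3) = 3 * α := rootMultiplicity_pow_eq g hg0 c 3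
      have hmq : rootMultiplicity c (54 * w ^ 2) = 4 * α := by
        rw [h54, rootMultiplicity_C_mul_eq _ _ (by norm_num), rootMultiplicity_pow_eq w hw0 c 2,
          ← hβ, hβ2]
        ring
      rw [rootMultiplicity_sub_of_lt hp c (by rw [hmp, hmq]; omega) hq, hmp]
    have hmD : rootMultiplicity c D = 3 * α := by
      have h2C : (2 : K[X]) = C 2 := (map_ofNat C 2).symm
      rw [← hm, ← h2, h2C, rootMultiplicity_C_mul_eq _ _ two_ne_zero]
    have hDroot : D.IsRoot c := by
      rw [← rootMultiplicity_pos hD, hmD]; omega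
    exact hmult c hDroot ⟨α, hmD⟩
  -- Step 2: `w` is a nonzero constant.
  have hwdeg : w.degree = 0 := by
    by_contra hne
    obtain ⟨c, hc⟩ := IsAlgClosed.exists_root w hne
    exact hnoroot c hc
  obtain ⟨w₀, hw₀⟩ : ∃ w₀ : K, w = C w₀ := ⟨w.coeff 0, eq_C_of_degree_eq_zero hwdeg⟩
  have hw₀ne : w₀ ≠ 0 := by
    intro h; apply hw0; rw [hw₀, h, C_0]
  -- `Y = C (1/(12 w₀)) * g²`
  have hY : Y = C (12 * w₀)⁻¹ * g ^ 2 := by
    rw [h1, hw₀]
    have h12 : (12 : K[X]) = C 12 := (map_ofNat C 12).symm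
    rw [h12]
    have : C (12 * w₀)⁻¹ * (C 12 * Y * C w₀) = C ((12 * w₀)⁻¹ * (12 * w₀)) * Y := by
      simp only [C_mul]; ring
    rw [this, inv_mul_cancel₀ (mul_ne_zero (by norm_num) hw₀ne), C_1, one_mul]
  have hA : A = g - C (3 * ((12 * w₀)⁻¹) ^ 2) * g ^ 4 := by
    have : A = g - 3 * Y ^ 2 := by rw [hg]; ring
    rw [this]
    conv_lhs => rw [hY]
    have h3 : (3 : K[X]) = C 3 := (map_ofNat C 3).symm
    rw [h3]
    simp only [C_mul, C_pow]
    ring
  have h2D : 2 * D = C (54 * w₀ ^ 2) - g ^ 3 := by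
    rw [h2, hw₀]
    have h54 : (54 : K[X]) = C 54 := (map_ofNat C 54).symm
    rw [h54]
    simp only [C_mul, C_pow]
  have hDnat : D.natDegree = (2 * D).natDegree := by
    have h2C : (2 : K[X]) = C 2 := (map_ofNat C 2).symm
    rw [h2C, natDegree_C_mul two_ne_zero]
  set k := g.natDegree with hk
  set e : K := 3 * ((12 * w₀)⁻¹) ^ 2 with he
  have hene : e ≠ 0 := by
    rw [he]
    exact mul_ne_zero (by norm_num)
      (pow_ne_zero 2 (inv_ne_zero (mul_ne_zero (by norm_num) hw₀ne)))
  by_cases hk0 : k = 0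
  · -- `g` constant
    obtain ⟨g₀, hg₀⟩ : ∃ g₀ : K, g = C g₀ := ⟨g.coeff 0, eq_C_of_natDegree_eq_zero hk0⟩
    have hAdeg : A.natDegree = 0 := by
      rw [hA, hg₀, ← C_pow, ← C_mul, ← C_sub, natDegree_C]
    have hDdeg : D.natDegree = 0 := by
      rw [hDnat, h2D, hg₀, ← C_pow, ← C_sub, natDegree_C]
    apply hdeg
    rw [hDdeg, hAdeg]
  · have hkpos : 0 < k := Nat.pos_of_ne_zero hk0
    have hg4 : (C e * g ^ 4).natDegree = 4 * k := by
      rw [natDegree_C_mul hene, natDegree_pow]
    have hg3 : (g ^ 3).natDegree = 3 * k := by rw [natDegree_pow]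
    have hAdeg : A.natDegree = 4 * k := by
      rw [hA, natDegree_sub_eq_right_of_natDegree_lt (by rw [hg4]; omega), hg4]
    have hDdeg : D.natDegree = 3 * k := by
      rw [hDnat, h2D, natDegree_sub_eq_right_of_natDegree_lt (by rw [natDegree_C, hg3]; omega), hg3]
    apply hdeg
    rw [hDdeg, hAdeg]; ring

end Main

section Descent

variable {k : Type*} [Field k] [CharZero k]

/-- **Usable form over any field of characteristic zero** (e.g. `ℚ`): if
`4A³ + 27B² = c · F ^ e` with `F` separable, `3 ∤ e`, `A`, `B` coprime and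
`4 · e · deg F ≠ 3 · deg A`, then the 3-division polynomial of `y² = x³ + A x + B` has no root
in `k[t]`. -/
theorem psi3_ne_zero_of_eq_pow (A B F : k[X]) (c : k) (hc : c ≠ 0) (e : ℕ) (he : ¬ 3 ∣ e)
    (hcop : IsCoprime A B) (hD : 4 * A ^ 3 + 27 * B ^ 2 = C c * F ^ e) (hF : F.Separable)
    (hdeg : 4 * (e * F.natDegree) ≠ 3 * A.natDegree) (Y : k[X]) : psi3 A B Y ≠ 0 := by
  intro hψ
  set f : k →+* AlgebraicClosure k := algebraMap k (AlgebraicClosure k) with hf
  have hinj : Function.Injective f := (algebraMap k (AlgebraicClosure k)).injective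
  have hF0 : F ≠ 0 := hF.ne_zero
  have hDmap : 4 * (A.map f) ^ 3 + 27 * (B.map f) ^ 2 = C (f c) * (F.map f) ^ e := by
    have := congrArg (Polynomial.map f) hD
    simpa [Polynomial.map_add, Polynomial.map_mul, Polynomial.map_pow] using this
  have hFm0 : F.map f ≠ 0 := (Polynomial.map_ne_zero_iff hinj).mpr hF0
  have hfc : f c ≠ 0 := (map_ne_zero_iff f hinj).mpr hc
  have hFsep : (F.map f).Separable := hF.map
  refine psi3_ne_zero (A.map f) (B.map f) (hcop.map (mapRingHom f)) ?_ ?_ ?_ (Y.map f) ?_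
  · rw [hDmap]
    exact mul_ne_zero (C_ne_zero.mpr hfc) (pow_ne_zero e hFm0)
  · intro x hx
    rw [hDmap] at hx ⊢
    rw [rootMultiplicity_C_mul_eq _ _ hfc, rootMultiplicity_pow_eq _ hFm0]
    have hroot : (F.map f).IsRoot x := by
      have : (C (f c) * (F.map f) ^ e).eval x = 0 := hx
      simp only [eval_mul, eval_C, eval_pow] at this
      rcases mul_eq_zero.mp this with h | h
      · exact absurd h hfc
      · exact pow_eq_zero_iff (by rintro rfl; simp at he) |>.mp h
    have hle : rootMultiplicity x (F.map f) ≤ 1 := rootMultiplicity_le_one_of_separable hFsep x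
    have hpos : 0 < rootMultiplicity x (F.map f) := (rootMultiplicity_pos hFm0).mpr hroot
    have h1 : rootMultiplicity x (F.map f) = 1 := le_antisymm hle hpos
    rw [h1, mul_one]
    exact he
  · rw [hDmap, natDegree_C_mul hfc, natDegree_pow, natDegree_map, natDegree_map]
    exact hdeg
  · have := congrArg (Polynomial.map f) hψ
    rw [Polynomial.map_zero] at this
    rw [← this]
    unfold psi3
    simp [Polynomial.map_sub, Polynomial.map_add, Polynomial.map_mul, Polynomial.map_pow]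

/-- The same statement with the division polynomial written out. -/
theorem psi3_ne_zero_of_eq_pow' (A B F : k[X]) (c : k) (hc : c ≠ 0) (e : ℕ) (he : ¬ 3 ∣ e)
    (hcop : IsCoprime A B) (hD : 4 * A ^ 3 + 27 * B ^ 2 = C c * F ^ e) (hF : F.Separable)
    (hdeg : 4 * (e * F.natDegree) ≠ 3 * A.natDegree) :
    ∀ Y : k[X], 3 * Y ^ 4 + 6 * A * Y ^ 2 + 12 * B * Y - A ^ 2 ≠ 0 :=
  fun Y => psi3_ne_zero_of_eq_pow A B F c hc e he hcop hD hF hdeg Y

/-- The monic scaling: `27 · psi3 A B X = Z⁴ + 18 A Z² + 108 B Z - 27 A²` with `Z = 3 X`. -/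
theorem psi3_scale {R : Type*} [CommRing R] (A B X : R) :
    (3 * X) ^ 4 + 18 * A * (3 * X) ^ 2 + 108 * B * (3 * X) - 27 * A ^ 2 = 27 * psi3 A B X := by
  unfold psi3; ring

/-- Monic form over `k[t]`: `Z⁴ + 18 A Z² + 108 B Z - 27 A²` has no root `Z : k[t]`. -/
theorem monic_quartic_ne_zero_of_eq_pow (A B F : k[X]) (c : k) (hc : c ≠ 0) (e : ℕ)
    (he : ¬ 3 ∣ e) (hcop : IsCoprime A B) (hD : 4 * A ^ 3 + 27 * B ^ 2 = C c * F ^ e)
    (hF : F.Separable) (hdeg : 4 * (e * F.natDegree) ≠ 3 * A.natDegree) (Z : k[X]) :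
    Z ^ 4 + 18 * A * Z ^ 2 + 108 * B * Z - 27 * A ^ 2 ≠ 0 := by
  intro hZ
  have h3 : (3 : k) ≠ 0 := by norm_num
  have hZ' : Z = 3 * (C (3 : k)⁻¹ * Z) := by
    have h3C : (3 : k[X]) = C 3 := (map_ofNat C 3).symm
    rw [h3C, ← mul_assoc, ← C_mul, mul_inv_cancel₀ h3, C_1, one_mul]
  have := psi3_scale A B (C (3 : k)⁻¹ * Z)
  rw [← hZ', hZ] at this
  have h27 : (27 : k[X]) ≠ 0 := by
    have : (27 : k[X]) = C 27 := (map_ofNat C 27).symm
    rw [this]; exact C_ne_zero.mpr (by norm_num)
  rcases mul_eq_zero.mp this.symm with h | h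
  · exact h27 h
  · exact psi3_ne_zero_of_eq_pow A B F c hc e he hcop hD hF hdeg _ h

/-- The monic quartic `Z⁴ + 18 A Z² + 108 B Z - 27 A²` as a polynomial over `k[t]`. -/
noncomputable def psi3Monic {R : Type*} [CommRing R] (A B : R) : R[X] :=
  X ^ 4 + C (18 * A) * X ^ 2 + C (108 * B) * X - C (27 * A ^ 2)

/-- The 3-division polynomial `3 Z⁴ + 6 A Z² + 12 B Z - A²` as a polynomial over `k[t]`. -/
noncomputable def psi3Poly {R : Type*} [CommRing R] (A B : R) : R[X] :=
  C 3 * X ^ 4 + C (6 * A) * X ^ 2 + C (12 * B) * X - C (A ^ 2)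

theorem psi3Monic_monic {R : Type*} [CommRing R] [Nontrivial R] (A B : R) :
    (psi3Monic A B).Monic := by
  have h1 : psi3Monic A B
      = X ^ 4 + (C (18 * A) * X ^ 2 + C (108 * B) * X - C (27 * A ^ 2)) := by
    unfold psi3Monic; ring
  rw [h1]
  apply monic_X_pow_add
  refine lt_of_le_of_lt (degree_sub_le _ _) ?_
  refine max_lt (lt_of_le_of_lt (degree_add_le _ _) (max_lt ?_ ?_)) ?_
  · exact lt_of_le_of_lt (degree_C_mul_X_pow_le 2 _) (by norm_num)
  · exact lt_of_le_of_lt (degree_C_mul_X_le _) (by norm_num)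
  · exact lt_of_le_of_lt degree_C_le (by norm_num)

theorem psi3Monic_natDegree {R : Type*} [CommRing R] [Nontrivial R] (A B : R) :
    (psi3Monic A B).natDegree = 4 := by
  have h1 : psi3Monic A B
      = X ^ 4 + (C (18 * A) * X ^ 2 + C (108 * B) * X - C (27 * A ^ 2)) := by
    unfold psi3Monic; ring
  have hlt : (C (18 * A) * X ^ 2 + C (108 * B) * X - C (27 * A ^ 2) : R[X]).degree < 4 := by
    refine lt_of_le_of_lt (degree_sub_le _ _) ?_
    refine max_lt (lt_of_le_of_lt (degree_add_le _ _) (max_lt ?_ ?_)) ?_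
    · exact lt_of_le_of_lt (degree_C_mul_X_pow_le 2 _) (by norm_num)
    · exact lt_of_le_of_lt (degree_C_mul_X_le _) (by norm_num)
    · exact lt_of_le_of_lt degree_C_le (by norm_num)
  have hdeg : (X ^ 4 : R[X]).degree = 4 := by
    rw [degree_X_pow]; rfl
  rw [h1]
  apply natDegree_eq_of_degree_eq_some
  rw [degree_add_eq_left_of_degree_lt (by rw [hdeg]; exact hlt), hdeg]
  rfl

theorem psi3Monic_eval₂ {R S : Type*} [CommRing R] [CommRing S] (f : R →+* S) (A B : R) (s : S) :
    (psi3Monic A B).eval₂ f s = s ^ 4 + 18 * f A * s ^ 2 + 108 * f B * s - 27 * f A ^ 2 := by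
  unfold psi3Monic
  simp only [eval₂_sub, eval₂_add, eval₂_mul, eval₂_pow, eval₂_X, eval₂_C, map_mul, map_pow,
    map_ofNat, eval₂_ofNat]

theorem psi3Monic_eval {R : Type*} [CommRing R] (A B Z : R) :
    (psi3Monic A B).eval Z = Z ^ 4 + 18 * A * Z ^ 2 + 108 * B * Z - 27 * A ^ 2 := by
  rw [← eval₂_id, psi3Monic_eval₂]; rfl

theorem psi3Monic_map {R S : Type*} [CommRing R] [CommRing S] (f : R →+* S) (A B : R) :
    (psi3Monic A B).map f = psi3Monic (f A) (f B) := by
  unfold psi3Monic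
  simp only [Polynomial.map_sub, Polynomial.map_add, Polynomial.map_mul, Polynomial.map_pow,
    Polynomial.map_X, Polynomial.map_C, map_mul, map_pow, map_ofNat, Polynomial.map_ofNat]

theorem psi3Poly_eval₂ {R S : Type*} [CommRing R] [CommRing S] (f : R →+* S) (A B : R) (s : S) :
    (psi3Poly A B).eval₂ f s = psi3 (f A) (f B) s := by
  unfold psi3Poly psi3
  simp only [eval₂_sub, eval₂_add, eval₂_mul, eval₂_pow, eval₂_X, eval₂_C, map_mul, map_pow,
    map_ofNat, eval₂_ofNat]

theorem psi3Poly_eval {R : Type*} [CommRing R] (A B Z : R) :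
    (psi3Poly A B).eval Z = psi3 A B Z := by
  rw [← eval₂_id, psi3Poly_eval₂]; rfl

theorem psi3Poly_map {R S : Type*} [CommRing R] [CommRing S] (f : R →+* S) (A B : R) :
    (psi3Poly A B).map f = psi3Poly (f A) (f B) := by
  unfold psi3Poly
  simp only [Polynomial.map_sub, Polynomial.map_add, Polynomial.map_mul, Polynomial.map_pow,
    Polynomial.map_X, Polynomial.map_C, map_mul, map_pow, map_ofNat, Polynomial.map_ofNat]

/-- `psi3Monic A B (3 X) = 27 · psi3Poly A B (X)`, as evaluations. -/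
theorem psi3Monic_eval_three_mul {R : Type*} [CommRing R] (A B Z : R) :
    (psi3Monic A B).eval (3 * Z) = 27 * (psi3Poly A B).eval Z := by
  rw [psi3Monic_eval, psi3Poly_eval, psi3_scale]

theorem psi3Poly_natDegree {R : Type*} [CommRing R] [Nontrivial R] (A B : R)
    (h3 : (3 : R) ≠ 0) : (psi3Poly A B).natDegree = 4 := by
  have h1 : psi3Poly A B
      = C 3 * X ^ 4 + (C (6 * A) * X ^ 2 + C (12 * B) * X - C (A ^ 2)) := by
    unfold psi3Poly; ring
  have hlt : (C (6 * A) * X ^ 2 + C (12 * B) * X - C (A ^ 2) : R[X]).degree < 4 := by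
    refine lt_of_le_of_lt (degree_sub_le _ _) ?_
    refine max_lt (lt_of_le_of_lt (degree_add_le _ _) (max_lt ?_ ?_)) ?_
    · exact lt_of_le_of_lt (degree_C_mul_X_pow_le 2 _) (by norm_num)
    · exact lt_of_le_of_lt (degree_C_mul_X_le _) (by norm_num)
    · exact lt_of_le_of_lt degree_C_le (by norm_num)
  have hdeg : (C (3 : R) * X ^ 4 : R[X]).degree = 4 := by
    rw [degree_C_mul_X_pow 4 h3]; rfl
  rw [h1]
  apply natDegree_eq_of_degree_eq_some
  rw [degree_add_eq_left_of_degree_lt (by rw [hdeg]; exact hlt), hdeg]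
  rfl

/-- **No root in the field of rational functions `k(t)`, monic form**:
`Z⁴ + 18 A Z² + 108 B Z - 27 A²` has no root in `RatFunc k` (a root is integral over `k[t]`,
hence a polynomial). -/
theorem monic_quartic_ratFunc_ne_zero_of_eq_pow (A B F : k[X]) (c : k) (hc : c ≠ 0) (e : ℕ)
    (he : ¬ 3 ∣ e) (hcop : IsCoprime A B) (hD : 4 * A ^ 3 + 27 * B ^ 2 = C c * F ^ e)
    (hF : F.Separable) (hdeg : 4 * (e * F.natDegree) ≠ 3 * A.natDegree) (s : RatFunc k) :
    s ^ 4 + 18 * algebraMap k[X] (RatFunc k) A * s ^ 2 + 108 * algebraMap k[X] (RatFunc k) B * s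
      - 27 * algebraMap k[X] (RatFunc k) A ^ 2 ≠ 0 := by
  intro hs
  set φ := algebraMap k[X] (RatFunc k) with hφ
  have hint : IsIntegral k[X] s :=
    ⟨psi3Monic A B, psi3Monic_monic A B, by rw [psi3Monic_eval₂]; exact hs⟩
  obtain ⟨Z, hZ⟩ := IsIntegrallyClosed.algebraMap_eq_of_integral hint
  have hinj : Function.Injective φ := IsFractionRing.injective k[X] (RatFunc k)
  apply monic_quartic_ne_zero_of_eq_pow A B F c hc e he hcop hD hF hdeg Z
  apply hinj
  rw [← hZ] at hs
  simp only [map_sub, map_add, map_mul, map_pow, map_ofNat, map_zero]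
  exact hs

/-- **No root in the field of rational functions `k(t)`**: the 3-division polynomial of
`y² = x³ + A x + B` (`A B : k[t]`) has no root in `RatFunc k`. -/
theorem psi3_ratFunc_ne_zero_of_eq_pow (A B F : k[X]) (c : k) (hc : c ≠ 0) (e : ℕ)
    (he : ¬ 3 ∣ e) (hcop : IsCoprime A B) (hD : 4 * A ^ 3 + 27 * B ^ 2 = C c * F ^ e)
    (hF : F.Separable) (hdeg : 4 * (e * F.natDegree) ≠ 3 * A.natDegree) (r : RatFunc k) :
    psi3 (algebraMap k[X] (RatFunc k) A) (algebraMap k[X] (RatFunc k) B) r ≠ 0 := by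
  intro hr
  apply monic_quartic_ratFunc_ne_zero_of_eq_pow A B F c hc e he hcop hD hF hdeg (3 * r)
  rw [psi3_scale, hr, mul_zero]

/-- The same in the shape consumed by the Hilbert-irreducibility brick (`HIT48`): the polynomial
`psi3Poly A B : k[t][Z]` has no root in `RatFunc k`. -/
theorem psi3Poly_ratFunc_no_root (A B F : k[X]) (c : k) (hc : c ≠ 0) (e : ℕ)
    (he : ¬ 3 ∣ e) (hcop : IsCoprime A B) (hD : 4 * A ^ 3 + 27 * B ^ 2 = C c * F ^ e)
    (hF : F.Separable) (hdeg : 4 * (e * F.natDegree) ≠ 3 * A.natDegree) (r : RatFunc k) :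
    ((psi3Poly A B).map (algebraMap k[X] (RatFunc k))).eval r ≠ 0 := by
  rw [eval_map, psi3Poly_eval₂]
  exact psi3_ratFunc_ne_zero_of_eq_pow A B F c hc e he hcop hD hF hdeg r

/-- Monic version: `psi3Monic A B : k[t][Z]` has no root in `RatFunc k`. -/
theorem psi3Monic_ratFunc_no_root (A B F : k[X]) (c : k) (hc : c ≠ 0) (e : ℕ)
    (he : ¬ 3 ∣ e) (hcop : IsCoprime A B) (hD : 4 * A ^ 3 + 27 * B ^ 2 = C c * F ^ e)
    (hF : F.Separable) (hdeg : 4 * (e * F.natDegree) ≠ 3 * A.natDegree) (r : RatFunc k) :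
    ((psi3Monic A B).map (algebraMap k[X] (RatFunc k))).eval r ≠ 0 := by
  rw [eval_map, psi3Monic_eval₂]
  exact monic_quartic_ratFunc_ne_zero_of_eq_pow A B F c hc e he hcop hD hF hdeg r

/-- Polynomial-root versions in the same shape. -/
theorem psi3Poly_no_root (A B F : k[X]) (c : k) (hc : c ≠ 0) (e : ℕ)
    (he : ¬ 3 ∣ e) (hcop : IsCoprime A B) (hD : 4 * A ^ 3 + 27 * B ^ 2 = C c * F ^ e)
    (hF : F.Separable) (hdeg : 4 * (e * F.natDegree) ≠ 3 * A.natDegree) (Y : k[X]) :
    (psi3Poly A B).eval Y ≠ 0 := by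
  rw [psi3Poly_eval]
  exact psi3_ne_zero_of_eq_pow A B F c hc e he hcop hD hF hdeg Y

theorem psi3Monic_no_root (A B F : k[X]) (c : k) (hc : c ≠ 0) (e : ℕ)
    (he : ¬ 3 ∣ e) (hcop : IsCoprime A B) (hD : 4 * A ^ 3 + 27 * B ^ 2 = C c * F ^ e)
    (hF : F.Separable) (hdeg : 4 * (e * F.natDegree) ≠ 3 * A.natDegree) (Z : k[X]) :
    (psi3Monic A B).eval Z ≠ 0 := by
  rw [psi3Monic_eval]
  exact monic_quartic_ne_zero_of_eq_pow A B F c hc e he hcop hD hF hdeg Z

end Descent

end Fermat.Agent.S52.C.NoThreeIsog62
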