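/-
S52 (3-5 switch), HIT backup route for brick (C) (helper62): the `(A, B)`-abstract middle piece.

For a one-parameter family `y² = x³ + A(t) x + B(t)` with `A B : ℤ[t]` such that, over SOME field
`K` of characteristic zero, `A` and `B` are coprime and `4A³ + 27B² = c · F ^ e` with `F` separable,
`3 ∤ e` and `4 · e · deg F ≠ 3 · deg A`:
every arithmetic progression contains arbitrarily large integers `k` such that the 3-division
polynomial `3x⁴ + 6 A(k) x² + 12 B(k) x - A(k)²` has no rational root (and `4A(k)³ + 27B(k)² ≠ 0`).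

Ingredients: `HIT48.hit_monic` (helper48: Hilbert irreducibility, root version) and
`NoThreeIsog62` (generic absence of a 3-isogeny).
-/
import Mathlib
import Fermat.Agent.S52.HIT48.Main
import Fermat.Agent.S52.C.NoThreeIsog62

set_option autoImplicit false

namespace Fermat.Agent.S52.C.Psi3HIT62

open Polynomial
open Fermat.Agent.S52.C.NoThreeIsog62

/-- The derivative of the monic quartic. -/
theorem derivative_psi3Monic {R : Type*} [CommRing R] (A B : R) :
    derivative (psi3Monic A B) = C 4 * X ^ 3 + C (36 * A) * X + C (108 * B) := by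
  unfold psi3Monic
  simp only [derivative_sub, derivative_add, derivative_mul, derivative_C, derivative_X_pow,
    derivative_X, zero_mul, zero_add, mul_one, sub_zero, Nat.cast_ofNat]
  simp only [map_mul, map_ofNat]
  ring

/-- **Universal Bezout witness** for the monic quartic `G = X⁴ + 18AX² + 108BX - 27A²`:
`(-4X² - 48A) · G + (X³ + 21AX + 81B) · G' = 324 · (4A³ + 27B²)`. -/
theorem bezout_psi3Monic {R : Type*} [CommRing R] (A B : R) :
    (C (-4) * X ^ 2 + C (-48 * A)) * psi3Monic A B
      + (X ^ 3 + C (21 * A) * X + C (81 * B)) * derivative (psi3Monic A B)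
      = C (324 * (4 * A ^ 3 + 27 * B ^ 2)) := by
  rw [derivative_psi3Monic]
  unfold psi3Monic
  simp only [map_mul, map_add, map_pow, map_neg, map_ofNat]
  ring

/-- A rational root of the 3-division polynomial with integer coefficients gives an integer root
of the monic quartic (`3x` is integral over `ℤ`). -/
theorem exists_int_root_of_rat_root (a b : ℤ) (x : ℚ)
    (hx : 3 * x ^ 4 + 6 * (a : ℚ) * x ^ 2 + 12 * (b : ℚ) * x - (a : ℚ) ^ 2 = 0) :
    ∃ z : ℤ, z ^ 4 + 18 * a * z ^ 2 + 108 * b * z - 27 * a ^ 2 = 0 := by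
  have hscale := psi3_scale (a : ℚ) (b : ℚ) x
  have hpsi : psi3 (a : ℚ) (b : ℚ) x = 0 := by unfold psi3; exact hx
  rw [hpsi, mul_zero] at hscale
  have hint : IsIntegral ℤ (3 * x) := by
    refine ⟨psi3Monic a b, psi3Monic_monic a b, ?_⟩
    rw [psi3Monic_eval₂]
    simpa using hscale
  obtain ⟨z, hz⟩ := IsIntegrallyClosed.algebraMap_eq_of_integral hint
  refine ⟨z, ?_⟩
  have hz' : (z : ℚ) = 3 * x := by simpa using hz
  rw [← hz'] at hscale
  exact_mod_cast hscale

section Main

variable {K : Type*} [Field K] [CharZero K]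

/-- **Hilbert irreducibility for the 3-division polynomial of a family.** -/
theorem exists_int_psi3_rootless (A B : ℤ[X]) (F : K[X]) (c : K) (hc : c ≠ 0) (e : ℕ)
    (he : ¬ 3 ∣ e)
    (hcop : IsCoprime (A.map (Int.castRingHom K)) (B.map (Int.castRingHom K)))
    (hD : 4 * (A.map (Int.castRingHom K)) ^ 3 + 27 * (B.map (Int.castRingHom K)) ^ 2
      = C c * F ^ e)
    (hF : F.Separable) (hdeg : 4 * (e * F.natDegree) ≠ 3 * A.natDegree)
    (a M : ℤ) (hM : M ≠ 0) (B₀ : ℤ) :
    ∃ k : ℤ, B₀ ≤ k ∧ k ≡ a [ZMOD M] ∧ 4 * (A.eval k) ^ 3 + 27 * (B.eval k) ^ 2 ≠ 0 ∧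
      ∀ x : ℚ, 3 * x ^ 4 + 6 * ((A.eval k : ℤ) : ℚ) * x ^ 2 + 12 * ((B.eval k : ℤ) : ℚ) * x
        - ((A.eval k : ℤ) : ℚ) ^ 2 ≠ 0 := by
  set φ : ℤ →+* K := Int.castRingHom K with hφ
  have hφinj : Function.Injective φ := Int.cast_injective
  have hAdeg : (A.map φ).natDegree = A.natDegree := natDegree_map_eq_of_injective hφinj A
  -- the discriminant polynomial is nonzero
  have hD0 : (324 * (4 * A ^ 3 + 27 * B ^ 2) : ℤ[X]) ≠ 0 := by
    intro h0
    have h324 : (324 : ℤ[X]) ≠ 0 := by
      have : (324 : ℤ[X]) = C 324 := (map_ofNat C 324).symm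
      rw [this]; exact C_ne_zero.mpr (by norm_num)
    have h1 : (4 * A ^ 3 + 27 * B ^ 2 : ℤ[X]) = 0 := by
      rcases mul_eq_zero.mp h0 with h | h
      · exact absurd h h324
      · exact h
    have h2 := congrArg (Polynomial.map φ) h1
    simp only [Polynomial.map_add, Polynomial.map_mul, Polynomial.map_pow, Polynomial.map_ofNat,
      Polynomial.map_zero] at h2
    rw [hD] at h2
    exact mul_ne_zero (C_ne_zero.mpr hc) (pow_ne_zero e hF.ne_zero) h2
  -- no root in `ℚ[t]`
  have hroot : ∀ P : ℚ[X],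
      ((psi3Monic A B).map (mapRingHom (Int.castRingHom ℚ))).eval P ≠ 0 := by
    intro P hP
    rw [psi3Monic_map, psi3Monic_eval] at hP
    have hmap := congrArg (Polynomial.map (algebraMap ℚ K)) hP
    have hcomp : (algebraMap ℚ K).comp (Int.castRingHom ℚ) = φ := RingHom.ext_int _ _
    have hA' : ((mapRingHom (Int.castRingHom ℚ)) A).map (algebraMap ℚ K) = A.map φ := by
      rw [coe_mapRingHom, Polynomial.map_map, hcomp]
    have hB' : ((mapRingHom (Int.castRingHom ℚ)) B).map (algebraMap ℚ K) = B.map φ := by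
      rw [coe_mapRingHom, Polynomial.map_map, hcomp]
    simp only [Polynomial.map_sub, Polynomial.map_add, Polynomial.map_mul, Polynomial.map_pow,
      Polynomial.map_ofNat, Polynomial.map_zero, hA', hB'] at hmap
    exact monic_quartic_ne_zero_of_eq_pow (A.map φ) (B.map φ) F c hc e he hcop hD hF
      (by rw [hAdeg]; exact hdeg) (P.map (algebraMap ℚ K)) hmap
  obtain ⟨k, hk1, hk2, hk3, hk4⟩ := Fermat.Agent.S52.HIT48.hit_monic (psi3Monic A B)
    (psi3Monic_monic A B) _ _ _ hD0 (bezout_psi3Monic A B) hroot a M hM B₀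
  refine ⟨k, hk1, hk2, ?_, ?_⟩
  · intro h0
    apply hk3
    simp only [eval_mul, eval_add, eval_pow, eval_ofNat]
    rw [h0, mul_zero]
  · intro x hx
    obtain ⟨z, hz⟩ := exists_int_root_of_rat_root (A.eval k) (B.eval k) x hx
    apply hk4 z
    unfold psi3Monic
    simp only [evalEval_sub, evalEval_add, evalEval_mul, evalEval_pow, evalEval_C, evalEval_X,
      eval_mul, eval_pow, eval_ofNat]
    exact hz

end Main

end Fermat.Agent.S52.C.Psi3HIT62
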