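/-
S52 (3-5 switch), HIT backup route for brick (C) (helper62): final `(c₄, c₆)`-abstract statement.

For a one-parameter family of invariants `c₄(t), c₆(t) ∈ ℤ[t]` such that, over SOME field `K` of
characteristic zero, `c₄` and `c₆` are coprime and `c₄³ - c₆² = c · F ^ e` with `F` separable,
`3 ∤ e` and `4 · e · deg F ≠ 3 · deg c₄`:
every arithmetic progression contains arbitrarily large integers `k` such that EVERY integral
Weierstrass model `W` with `W.c₄ = c₄(k)`, `W.c₆ = c₆(k)` has an irreducible mod-3 representation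
(and `c₄(k)³ - c₆(k)² ≠ 0`).
-/
import Mathlib
import Fermat.Agent.S52.C.Psi3HIT62
import Fermat.Agent.S52.C42.Psi3J1728

set_option autoImplicit false

namespace Fermat.Agent.S52.C.Irr3HIT62

open Polynomial

/-- An integral Weierstrass curve with `Δ ≠ 0` whose short-model 3-division polynomial
`3X⁴ + 6AX² + 12BX - A²` (`A = -27 c₄`, `B = -54 c₆`) has no rational root has an irreducible
mod-3 representation. -/
theorem modRepIsIrreducible_three_of_rootless (W : WeierstrassCurve ℤ) (hΔ : W.Δ ≠ 0)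
    (hroot : ∀ x : ℚ, 3 * x ^ 4 + 6 * ((-27 * W.c₄ : ℤ) : ℚ) * x ^ 2
      + 12 * ((-54 * W.c₆ : ℤ) : ℚ) * x - ((-27 * W.c₄ : ℤ) : ℚ) ^ 2 ≠ 0) :
    W.ModRepIsIrreducible 3 := by
  by_contra h
  unfold WeierstrassCurve.ModRepIsIrreducible at h
  have hΔq : (W.map (Int.castRingHom ℚ)).Δ ≠ 0 := by
    rw [WeierstrassCurve.map_Δ]
    intro h0
    apply hΔ
    have : ((W.Δ : ℤ) : ℚ) = 0 := h0
    exact_mod_cast this
  obtain ⟨x, -, hx⟩ := Fermat.Agent.S51.Galois.rational_root_of_not_irreducible_three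
    (W.map (Int.castRingHom ℚ)) hΔq h
  have hpsi : Fermat.Agent.S51.psi3 (W.map (Int.castRingHom ℚ)) x = 0 := by
    rw [Fermat.Agent.S51.psi3_eq, hx, sub_self]
  have hshort := Fermat.Agent.S52.C42.Psi3J1728.psi3_short_eq (W.map (Int.castRingHom ℚ)) x
  rw [hpsi, mul_zero] at hshort
  have hc4 : (W.map (Int.castRingHom ℚ)).c₄ = ((W.c₄ : ℤ) : ℚ) := by
    rw [WeierstrassCurve.map_c₄]; rfl
  have hc6 : (W.map (Int.castRingHom ℚ)).c₆ = ((W.c₆ : ℤ) : ℚ) := by
    rw [WeierstrassCurve.map_c₆]; rfl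
  rw [hc4, hc6] at hshort
  apply hroot (36 * x + 3 * (W.map (Int.castRingHom ℚ)).b₂)
  push_cast
  exact hshort

section Main

variable {K : Type*} [Field K] [CharZero K]

/-- **(C), Hilbert-irreducibility route, abstract in the family.** -/
theorem exists_int_modRepIsIrreducible_three (c4 c6 : ℤ[X]) (F : K[X]) (c : K) (hc : c ≠ 0)
    (e : ℕ) (he : ¬ 3 ∣ e)
    (hcop : IsCoprime (c4.map (Int.castRingHom K)) (c6.map (Int.castRingHom K)))
    (hD : (c4.map (Int.castRingHom K)) ^ 3 - (c6.map (Int.castRingHom K)) ^ 2 = C c * F ^ e)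
    (hF : F.Separable) (hdeg : 4 * (e * F.natDegree) ≠ 3 * c4.natDegree)
    (a M : ℤ) (hM : M ≠ 0) (B₀ : ℤ) :
    ∃ k : ℤ, B₀ ≤ k ∧ k ≡ a [ZMOD M] ∧ (c4.eval k) ^ 3 - (c6.eval k) ^ 2 ≠ 0 ∧
      ∀ W : WeierstrassCurve ℤ, W.c₄ = c4.eval k → W.c₆ = c6.eval k →
        W.ModRepIsIrreducible 3 := by
  set φ : ℤ →+* K := Int.castRingHom K with hφ
  set A : ℤ[X] := C (-27) * c4 with hA
  set B : ℤ[X] := C (-54) * c6 with hB
  have hAmap : A.map φ = C (-27 : K) * c4.map φ := by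
    rw [hA, Polynomial.map_mul, Polynomial.map_C]; simp
  have hBmap : B.map φ = C (-54 : K) * c6.map φ := by
    rw [hB, Polynomial.map_mul, Polynomial.map_C]; simp
  have hu27 : IsUnit (C (-27 : K) : K[X]) := isUnit_C.mpr (IsUnit.mk0 _ (by norm_num))
  have hu54 : IsUnit (C (-54 : K) : K[X]) := isUnit_C.mpr (IsUnit.mk0 _ (by norm_num))
  have hcop' : IsCoprime (A.map φ) (B.map φ) := by
    rw [hAmap, hBmap]
    exact (isCoprime_mul_units_left hu27 hu54 _ _).mpr hcop
  have hD' : 4 * (A.map φ) ^ 3 + 27 * (B.map φ) ^ 2 = C (-78732 * c) * F ^ e := by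
    rw [hAmap, hBmap, C_mul, mul_assoc, ← hD]
    have h1 : (C (-27 : K) : K[X]) = -27 := by
      rw [C_neg, ← map_ofNat C 27]
    have h2 : (C (-54 : K) : K[X]) = -54 := by
      rw [C_neg, ← map_ofNat C 54]
    have h3 : (C (-78732 : K) : K[X]) = -78732 := by
      rw [C_neg, ← map_ofNat C 78732]
    rw [h1, h2, h3]
    ring
  have hAdeg : A.natDegree = c4.natDegree := by
    rw [hA, natDegree_C_mul (by norm_num)]
  obtain ⟨k, hk1, hk2, hk3, hk4⟩ := Fermat.Agent.S52.C.Psi3HIT62.exists_int_psi3_rootless A B F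
    (-78732 * c) (mul_ne_zero (by norm_num) hc) e he hcop' hD' hF (by rw [hAdeg]; exact hdeg)
    a M hM B₀
  have hAk : A.eval k = -27 * c4.eval k := by rw [hA, eval_mul, eval_C]
  have hBk : B.eval k = -54 * c6.eval k := by rw [hB, eval_mul, eval_C]
  have hne : (c4.eval k) ^ 3 - (c6.eval k) ^ 2 ≠ 0 := by
    intro h0
    apply hk3
    rw [hAk, hBk]
    linear_combination (-78732 : ℤ) * h0
  refine ⟨k, hk1, hk2, hne, ?_⟩
  intro W h4 h6
  have hΔ : W.Δ ≠ 0 := by
    intro h0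
    apply hne
    have := W.c_relation
    rw [h0, h4, h6] at this
    linear_combination -this
  apply modRepIsIrreducible_three_of_rootless W hΔ
  intro x
  have := hk4 x
  rw [hAk, hBk, ← h4, ← h6] at this
  exact this

end Main

end Fermat.Agent.S52.C.Irr3HIT62
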