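/-
S52 (3-5 switch), HIT backup route for brick (C) (helper62): the Klein-pencil instantiation.

Let `K` be a field of characteristic zero, `p₀ = (u0, v0)`, `q₀ = (a, b)` independent vectors of
`K²`, and `c4 c6 : ℤ[t]` integer polynomials whose images in `K[t]` are `-kH(p₀ + t q₀)` and
`-kT(p₀ + t q₀)` (Klein's forms of degree 20 and 30, in the normalisation of `KleinLine49`).  Then
every arithmetic progression contains arbitrarily large integers `k` such that every integral
Weierstrass model with invariants `(c4(k), c6(k))` has an irreducible mod-3 representation.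

No Galois-theoretic input: only `HIT48` (Hilbert irreducibility), `NoThreeIsog62` (no generic
3-isogeny) and `KleinLine49` (coprimality / separability along the line).
-/
import Mathlib
import Fermat.Agent.S52.C.Irr3HIT62
import Fermat.Agent.S52.CGlue.KleinLine49

set_option autoImplicit false

namespace Fermat.Agent.S52.C.KleinHIT62

open Polynomial
open Fermat.Agent.S52.CGlue.KleinLine49

variable {K : Type*} [Field K] [CharZero K]

/-- **(C) via Hilbert irreducibility for a Klein pencil.** -/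
theorem exists_int_irreducible_three_of_line (u0 v0 a b : K) (hδ : u0 * b - v0 * a ≠ 0)
    (c4 c6 : ℤ[X])
    (h4 : c4.map (Int.castRingHom K) = -kH (lineU u0 a) (lineV v0 b))
    (h6 : c6.map (Int.castRingHom K) = -kT (lineU u0 a) (lineV v0 b))
    (r M : ℤ) (hM : M ≠ 0) (B₀ : ℤ) :
    ∃ k : ℤ, B₀ ≤ k ∧ k ≡ r [ZMOD M] ∧ (c4.eval k) ^ 3 - (c6.eval k) ^ 2 ≠ 0 ∧
      ∀ W : WeierstrassCurve ℤ, W.c₄ = c4.eval k → W.c₆ = c6.eval k →
        W.ModRepIsIrreducible 3 := by
  have hinj : Function.Injective (Int.castRingHom K) := Int.cast_injective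
  have hdeg4 : c4.natDegree ≤ 20 := by
    rw [← natDegree_map_eq_of_injective hinj c4, h4, natDegree_neg]
    exact natDegree_kH_line_le
  have hF11 := le_natDegree_kF_line (K := K) hδ
  refine Fermat.Agent.S52.C.Irr3HIT62.exists_int_modRepIsIrreducible_three c4 c6
    (kF (lineU u0 a) (lineV v0 b)) (-1728) (by norm_num) 5 (by norm_num) ?_ ?_
    (separable_kF_line hδ) (by omega) r M hM B₀
  · rw [h4, h6]
    exact (isCoprime_kH_kT_line hδ).neg_left.neg_right
  · rw [h4, h6]
    have hrel := klein_relation (lineU u0 a) (lineV v0 b)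
    have hC : (C (-1728 : K) : K[X]) = -1728 := by
      rw [C_neg, ← map_ofNat C 1728]
    rw [hC]
    linear_combination (-1 : K[X]) * hrel

/-- The same with `q₀ = (∂f/∂v, -∂f/∂u)(p₀)` (the tangent direction of the level curve of `f`;
plan #278 up to the harmless sign `t ↦ -t`), for which independence is `f(p₀) ≠ 0`. -/
theorem exists_int_irreducible_three_of_gradPerp (u0 v0 : K) (hf : kF u0 v0 ≠ 0)
    (c4 c6 : ℤ[X])
    (h4 : c4.map (Int.castRingHom K)
      = -kH (lineU u0 (kFv u0 v0)) (lineV v0 (-kFu u0 v0)))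
    (h6 : c6.map (Int.castRingHom K)
      = -kT (lineU u0 (kFv u0 v0)) (lineV v0 (-kFu u0 v0)))
    (r M : ℤ) (hM : M ≠ 0) (B₀ : ℤ) :
    ∃ k : ℤ, B₀ ≤ k ∧ k ≡ r [ZMOD M] ∧ (c4.eval k) ^ 3 - (c6.eval k) ^ 2 ≠ 0 ∧
      ∀ W : WeierstrassCurve ℤ, W.c₄ = c4.eval k → W.c₆ = c6.eval k →
        W.ModRepIsIrreducible 3 := by
  refine exists_int_irreducible_three_of_line u0 v0 (kFv u0 v0) (-kFu u0 v0) ?_ c4 c6 h4 h6
    r M hM B₀
  rw [det_gradPerp]
  exact mul_ne_zero (by norm_num) hf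

/-- Sign-flipped direction `q₀ = (-∂f/∂v, ∂f/∂u)(p₀)` (the literal convention of plan #278). -/
theorem exists_int_irreducible_three_of_gradPerp' (u0 v0 : K) (hf : kF u0 v0 ≠ 0)
    (c4 c6 : ℤ[X])
    (h4 : c4.map (Int.castRingHom K)
      = -kH (lineU u0 (-kFv u0 v0)) (lineV v0 (kFu u0 v0)))
    (h6 : c6.map (Int.castRingHom K)
      = -kT (lineU u0 (-kFv u0 v0)) (lineV v0 (kFu u0 v0)))
    (r M : ℤ) (hM : M ≠ 0) (B₀ : ℤ) :
    ∃ k : ℤ, B₀ ≤ k ∧ k ≡ r [ZMOD M] ∧ (c4.eval k) ^ 3 - (c6.eval k) ^ 2 ≠ 0 ∧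
      ∀ W : WeierstrassCurve ℤ, W.c₄ = c4.eval k → W.c₆ = c6.eval k →
        W.ModRepIsIrreducible 3 := by
  refine exists_int_irreducible_three_of_line u0 v0 (-kFv u0 v0) (kFu u0 v0) ?_ c4 c6 h4 h6
    r M hM B₀
  have h := det_gradPerp u0 v0
  have : u0 * kFu u0 v0 - v0 * -kFv u0 v0 = 12 * kF u0 v0 := by linear_combination -h
  rw [this]
  exact mul_ne_zero (by norm_num) hf

end Fermat.Agent.S52.C.KleinHIT62
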