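/-
S52, brick (C)-glue (helper58): choice of the auxiliary prime by Chebotarev.

Input: an element `σ₀` of the absolute Galois group of `ℚ` which fixes a finite extension
`L ⊂ ℚ̄` pointwise (for instance `L = ℚ(t*)`) and sends a square root `s` of a nonzero integer `d`
to `-s`.

Output (`exists_prime_residue`): outside any finite set of primes there are a prime `p`, a
valuation subring `A` of `ℚ̄` over `p` such that every `x ∈ L ∩ A` is congruent modulo the maximal
ideal of `A` to a rational integer, and `d` is not a square modulo `p`.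

The proof uses the generator form of Chebotarev's theorem `ChebQbar23.exists_frobenius_zpowers_eq`:
a Frobenius element `φ` whose restriction to the normal closure `N` of `L(s)` generates the same
subgroup as `σ₀|N` fixes `L` and cannot fix `s`.
-/
import Mathlib
import Fermat.Agent.ES.GAL.ChebQbar23

set_option autoImplicit false

open Fermat.Agent.Lib.FrobeniusExists

namespace Fermat.Agent.S52.C.ChebPrime58

attribute [local instance] isGalois_Qbar isIntegral_Qbar

/-! ### Integers and valuation subrings over a prime -/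

theorem intCast_mem (A : ValuationSubring Qbar) (k : ℤ) : (k : Qbar) ∈ A :=
  (A.valuation_le_one_iff _).mp (valuation_intCast_le_one A k)

/-- A rational integer in the maximal ideal of a valuation subring over `p` is divisible by
`p`. -/
theorem dvd_of_intCast_mem_nonunits {A : ValuationSubring Qbar} {p : ℕ} (hp : p.Prime)
    (hA : A.LiesOverPrime p) {k : ℤ} (hk : (k : Qbar) ∈ A.nonunits) : (p : ℤ) ∣ k := by
  by_contra hnd
  have hpZ : Prime (p : ℤ) := Nat.prime_iff_prime_int.mp hp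
  have hcop : IsCoprime (p : ℤ) k := (hpZ.irreducible.coprime_iff_not_dvd).mpr hnd
  obtain ⟨u, w, huw⟩ := hcop
  have hpv : A.valuation (p : Qbar) < 1 := hA
  have hkv : A.valuation (k : Qbar) < 1 := hk
  have h1 : A.valuation ((u : Qbar) * (p : Qbar) + (w : Qbar) * (k : Qbar)) < 1 := by
    refine lt_of_le_of_lt (Valuation.map_add _ _ _) (max_lt ?_ ?_)
    · rw [map_mul]
      calc A.valuation (u : Qbar) * A.valuation (p : Qbar) ≤ 1 * A.valuation (p : Qbar) := by
            gcongr; exact valuation_intCast_le_one A u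
        _ < 1 := by simpa using hpv
    · rw [map_mul]
      calc A.valuation (w : Qbar) * A.valuation (k : Qbar) ≤ 1 * A.valuation (k : Qbar) := by
            gcongr; exact valuation_intCast_le_one A w
        _ < 1 := by simpa using hkv
  have h2 : (u : Qbar) * (p : Qbar) + (w : Qbar) * (k : Qbar) = 1 := by
    have := congrArg (Int.cast : ℤ → Qbar) huw
    push_cast at this
    exact this
  rw [h2, map_one] at h1
  exact lt_irrefl _ h1

theorem intCast_mem_nonunits_iff {A : ValuationSubring Qbar} {p : ℕ} (hp : p.Prime)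
    (hA : A.LiesOverPrime p) (k : ℤ) : (k : Qbar) ∈ A.nonunits ↔ (p : ℤ) ∣ k := by
  refine ⟨dvd_of_intCast_mem_nonunits hp hA, ?_⟩
  rintro ⟨c, rfl⟩
  have hpv : A.valuation (p : Qbar) < 1 := hA
  change A.valuation (((p : ℤ) * c : ℤ) : Qbar) < 1
  rw [Int.cast_mul, map_mul, Int.cast_natCast]
  calc A.valuation (p : Qbar) * A.valuation (c : Qbar) ≤ A.valuation (p : Qbar) * 1 := by
        gcongr; exact valuation_intCast_le_one A c
    _ < 1 := by simpa using hpv

/-- The valuation of a rational integer prime to `p` is `1`. -/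
theorem valuation_intCast_eq_one {A : ValuationSubring Qbar} {p : ℕ} (hp : p.Prime)
    (hA : A.LiesOverPrime p) {k : ℤ} (hk : ¬ (p : ℤ) ∣ k) : A.valuation (k : Qbar) = 1 := by
  refine le_antisymm (valuation_intCast_le_one A k) (not_lt.mp fun hlt => hk ?_)
  exact dvd_of_intCast_mem_nonunits hp hA hlt

/-! ### Almost all valuation subrings contain a given algebraic number -/

/-- Every `x ∈ ℚ̄` lies in all valuation subrings over primes outside a finite set. -/
theorem exists_bad_integral (x : Qbar) :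
    ∃ m : ℕ, m ≠ 0 ∧ ∀ p : ℕ, p.Prime → ¬ p ∣ m → ∀ A : ValuationSubring Qbar,
      A.LiesOverPrime p → x ∈ A := by
  obtain ⟨y, hy0, hy⟩ := (isAlgebraic_int_Qbar x).exists_integral_multiple
  refine ⟨y.natAbs, Int.natAbs_ne_zero.mpr hy0, fun p hp hpm A hA => ?_⟩
  have hpy : ¬ (p : ℤ) ∣ y := fun h => hpm (Int.natCast_dvd.mp h)
  have hyv : A.valuation (y : Qbar) = 1 := valuation_intCast_eq_one hp hA hpy
  have hyx : (y : Qbar) * x ∈ A := by
    have : y • x = (y : Qbar) * x := by rw [zsmul_eq_mul]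
    rw [← this]
    exact mem_valuationSubring_of_isIntegral A hy
  rw [← A.valuation_le_one_iff] at hyx ⊢
  rwa [map_mul, hyv, one_mul] at hyx

/-- Every nonzero `x ∈ ℚ̄` is a unit of all valuation subrings over primes outside a finite
set. -/
theorem exists_bad_unit {x : Qbar} (hx : x ≠ 0) :
    ∃ m : ℕ, m ≠ 0 ∧ ∀ p : ℕ, p.Prime → ¬ p ∣ m → ∀ A : ValuationSubring Qbar,
      A.LiesOverPrime p → A.valuation x = 1 := by
  obtain ⟨m₁, hm₁, h₁⟩ := exists_bad_integral x
  obtain ⟨m₂, hm₂, h₂⟩ := exists_bad_integral x⁻¹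
  refine ⟨m₁ * m₂, Nat.mul_ne_zero hm₁ hm₂, fun p hp hpm A hA => ?_⟩
  have hx1 : A.valuation x ≤ 1 :=
    (A.valuation_le_one_iff _).mpr (h₁ p hp (fun h => hpm (h.mul_right _)) A hA)
  have hx2 : A.valuation x⁻¹ ≤ 1 :=
    (A.valuation_le_one_iff _).mpr (h₂ p hp (fun h => hpm (h.mul_left _)) A hA)
  refine le_antisymm hx1 ?_
  rw [map_inv₀] at hx2
  have hv0 : A.valuation x ≠ 0 := (Valuation.ne_zero_iff _).mpr hx
  exact (inv_le_one₀ (zero_lt_iff.mpr hv0)).mp hx2

/-! ### Consequences of the Frobenius congruence -/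

/-- The residue field of a valuation subring over `p` has characteristic `p`. -/
theorem charP_residueField {A : ValuationSubring Qbar} {p : ℕ} (hp : p.Prime)
    (hA : A.LiesOverPrime p) : CharP (IsLocalRing.ResidueField A) p := by
  rw [CharP.charP_iff_prime_eq_zero hp]
  have h : ((p : A) : Qbar) ∈ A.nonunits := by
    have : ((p : A) : Qbar) = (p : Qbar) := by push_cast; rfl
    rw [this]; exact hA
  have h2 : IsLocalRing.residue A (p : A) = 0 := by
    rw [IsLocalRing.residue_eq_zero_iff, ← ValuationSubring.coe_mem_nonunits_iff]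
    exact h
  rw [← h2, map_natCast]

/-- An element of `A` fixed by a Frobenius element at `A` is congruent to a rational integer
modulo the maximal ideal of `A`. -/
theorem exists_int_residue {A : ValuationSubring Qbar} {p : ℕ} (hp : p.Prime)
    (hA : A.LiesOverPrime p) {φ : GQ} (hφ : A.IsFrobeniusAt φ p) {x : Qbar} (hxA : x ∈ A)
    (hfix : φ x = x) : ∃ n : ℤ, x - n ∈ A.nonunits := by
  have : Fact p.Prime := ⟨hp⟩
  have : CharP (IsLocalRing.ResidueField A) p := charP_residueField hp hA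
  have h1 := Fermat.Agent.ES.GAL.ChebQbar23.sub_pow_mem_nonunits hφ hxA
  rw [hfix] at h1
  set xA : A := ⟨x, hxA⟩ with hxA'
  have h2 : ((xA - xA ^ p : A) : Qbar) ∈ A.nonunits := by
    have : ((xA - xA ^ p : A) : Qbar) = x - x ^ p := by push_cast; rfl
    rw [this]; exact h1
  rw [ValuationSubring.coe_mem_nonunits_iff, ← IsLocalRing.residue_eq_zero_iff, map_sub, map_pow,
    sub_eq_zero] at h2
  have h3 : IsLocalRing.residue A xA ∈ (⊥ : Subfield (IsLocalRing.ResidueField A)) :=
    (Subfield.mem_bot_iff_pow_eq_self (IsLocalRing.ResidueField A) p).mpr h2.symm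
  obtain ⟨n, hn⟩ := (mem_bot_iff_intCast p (IsLocalRing.ResidueField A)).mp h3
  refine ⟨n, ?_⟩
  have h4 : IsLocalRing.residue A (xA - (n : A)) = 0 := by
    rw [map_sub, map_intCast, hn, sub_self]
  rw [IsLocalRing.residue_eq_zero_iff, ← ValuationSubring.coe_mem_nonunits_iff] at h4
  have : ((xA - (n : A) : A) : Qbar) = x - n := by push_cast; rfl
  rwa [this] at h4

/-- If a Frobenius element at `A` over `p` sends a square root `s` of the integer `d` to `-s`
(`p` prime to `2d`), then `d` is not a square modulo `p`. -/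
theorem not_isSquare_of_frobenius_neg {A : ValuationSubring Qbar} {p : ℕ} (hp : p.Prime)
    (hA : A.LiesOverPrime p) {φ : GQ} (hφ : A.IsFrobeniusAt φ p) {s : Qbar} {d : ℤ}
    (hs : s ^ 2 = d) (hneg : φ s = -s) (hp2 : p ≠ 2) (hpd : ¬ (p : ℤ) ∣ d) :
    ¬ IsSquare ((d : ℤ) : ZMod p) := by
  have : Fact p.Prime := ⟨hp⟩
  -- `s` is a unit of `A`
  have hdv : A.valuation (d : Qbar) = 1 := valuation_intCast_eq_one hp hA hpd
  have hsv : A.valuation s = 1 := by
    have h : A.valuation s ^ 2 = 1 := by rw [← map_pow, hs, hdv]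
    by_contra hne
    rcases lt_or_gt_of_ne hne with hlt | hgt
    · have : A.valuation s ^ 2 < 1 := pow_lt_one₀ zero_le hlt two_ne_zero
      exact absurd h this.ne
    · have : 1 < A.valuation s ^ 2 := one_lt_pow₀ hgt two_ne_zero
      exact absurd h this.ne'
  have hsA : s ∈ A := (A.valuation_le_one_iff _).mp hsv.le
  have h1 := Fermat.Agent.ES.GAL.ChebQbar23.sub_pow_mem_nonunits hφ hsA
  rw [hneg] at h1
  -- `p = 2 h + 1`
  obtain ⟨h, hh⟩ : ∃ h, p = 2 * h + 1 := by
    rcases hp.eq_two_or_odd' with h2 | hodd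
    · exact absurd h2 hp2
    · obtain ⟨h, hh⟩ := hodd; exact ⟨h, hh⟩
  have h2 : -s - s ^ p = -s * (((1 + d ^ h : ℤ)) : Qbar) := by
    rw [hh, pow_succ, pow_mul, hs]; push_cast; ring
  rw [h2] at h1
  have h3 : A.valuation (((1 + d ^ h : ℤ)) : Qbar) < 1 := by
    have h4 : A.valuation (-s * (((1 + d ^ h : ℤ)) : Qbar)) < 1 := h1
    rwa [map_mul, Valuation.map_neg, hsv, one_mul] at h4
  have h5 : (p : ℤ) ∣ 1 + d ^ h := dvd_of_intCast_mem_nonunits hp hA h3
  have h6 : ((d : ℤ) : ZMod p) ^ h = -1 := by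
    have := (ZMod.intCast_zmod_eq_zero_iff_dvd (1 + d ^ h) p).mpr h5
    push_cast at this
    exact eq_neg_of_add_eq_zero_right this
  have hd0 : ((d : ℤ) : ZMod p) ≠ 0 := by
    rw [Ne, ZMod.intCast_zmod_eq_zero_iff_dvd]; exact hpd
  intro hsq
  have h7 := (ZMod.euler_criterion p hd0).mp hsq
  have hp2' : p / 2 = h := by omega
  rw [hp2', h6] at h7
  -- `-1 = 1` in `ZMod p` forces `p = 2`
  have h8 : ((2 : ℤ) : ZMod p) = 0 := by
    have : (1 : ZMod p) + 1 = 0 := by nth_rewrite 1 [← h7]; ring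
    push_cast; rw [← this]; ring
  rw [ZMod.intCast_zmod_eq_zero_iff_dvd] at h8
  have h9 : p ∣ 2 := by exact_mod_cast h8
  exact hp2 ((Nat.prime_dvd_prime_iff_eq hp Nat.prime_two).mp h9)

/-! ### Chebotarev -/

/-- If `h|N` is a power of `g|N` and `g` fixes `y ∈ N`, then `h` fixes `y`. -/
theorem fix_of_mem_zpowers {N : IntermediateField ℚ Qbar} [Normal ℚ N] {g h : GQ}
    (hmem : AlgEquiv.restrictNormalHom N h ∈ Subgroup.zpowers (AlgEquiv.restrictNormalHom N g))
    {y : Qbar} (hy : y ∈ N) (hg : g y = y) : h y = y := by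
  obtain ⟨k, hk⟩ := Subgroup.mem_zpowers_iff.mp hmem
  rw [← map_zpow] at hk
  have h1 : algebraMap N Qbar ((AlgEquiv.restrictNormalHom N (g ^ k)) ⟨y, hy⟩) =
      (g ^ k) (algebraMap N Qbar ⟨y, hy⟩) := AlgEquiv.restrictNormal_commutes (g ^ k) N ⟨y, hy⟩
  have h2 : algebraMap N Qbar ((AlgEquiv.restrictNormalHom N h) ⟨y, hy⟩) =
      h (algebraMap N Qbar ⟨y, hy⟩) := AlgEquiv.restrictNormal_commutes h N ⟨y, hy⟩
  rw [hk] at h1
  have h3 : h y = (g ^ k) y := h2.symm.trans h1
  rw [h3]
  have h4 : g ∈ MulAction.stabilizer GQ y := MulAction.mem_stabilizer_iff.mpr hg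
  exact MulAction.mem_stabilizer_iff.mp (Subgroup.zpow_mem _ h4 k)

/-- **Chebotarev, tailored form.**  If `σ₀ ∈ G_ℚ` fixes the finite extension `L` pointwise and
sends a square root `s` of the nonzero integer `d` to `-s`, then outside any finite set of primes
there is a Frobenius element with the same two properties. -/
theorem exists_frobenius_fix_neg (L : IntermediateField ℚ Qbar) [FiniteDimensional ℚ L]
    {s : Qbar} {d : ℤ} (hd : d ≠ 0) (hs : s ^ 2 = d) (σ₀ : GQ) (hL : ∀ y ∈ L, σ₀ y = y)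
    (hneg : σ₀ s = -s) (T : Finset ℕ) :
    ∃ (p : ℕ) (A : ValuationSubring Qbar) (φ : GQ), p.Prime ∧ p ∉ T ∧ A.LiesOverPrime p ∧
      A.IsFrobeniusAt φ p ∧ (∀ y ∈ L, φ y = y) ∧ φ s = -s := by
  classical
  have hsint : IsIntegral ℚ s := Algebra.IsIntegral.isIntegral s
  have : FiniteDimensional ℚ (IntermediateField.adjoin ℚ {s}) :=
    IntermediateField.adjoin.finiteDimensional hsint
  set M : IntermediateField ℚ Qbar := L ⊔ IntermediateField.adjoin ℚ {s} with hM
  have hMfin : FiniteDimensional ℚ M := IntermediateField.finiteDimensional_sup _ _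
  obtain ⟨N, hfin, hnorm, hMN⟩ : ∃ N : IntermediateField ℚ Qbar,
      FiniteDimensional ℚ N ∧ Normal ℚ N ∧ M ≤ N :=
    ⟨IntermediateField.normalClosure ℚ M Qbar, normalClosure.is_finiteDimensional ℚ M Qbar,
      normalClosure.normal ℚ M Qbar, IntermediateField.le_normalClosure M⟩
  have hgal : IsGalois ℚ N := ⟨⟩
  have hLN : L ≤ N := le_trans le_sup_left hMN
  have hsN : s ∈ N := hMN (le_sup_right (a := L)
    (IntermediateField.mem_adjoin_simple_self ℚ s))
  obtain ⟨p, A, φ, hp, hpT, hAp, hφ, hgen⟩ :=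
    Fermat.Agent.ES.GAL.ChebQbar23.exists_frobenius_zpowers_eq N
      (AlgEquiv.restrictNormalHom N σ₀) T
  have hmem1 : AlgEquiv.restrictNormalHom N φ ∈
      Subgroup.zpowers (AlgEquiv.restrictNormalHom N σ₀) := by
    rw [← hgen]; exact Subgroup.mem_zpowers _
  have hmem2 : AlgEquiv.restrictNormalHom N σ₀ ∈
      Subgroup.zpowers (AlgEquiv.restrictNormalHom N φ) := by
    rw [hgen]; exact Subgroup.mem_zpowers _
  refine ⟨p, A, φ, hp, hpT, hAp, hφ, fun y hy => fix_of_mem_zpowers hmem1 (hLN hy) (hL y hy), ?_⟩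
  have hs0 : s ≠ 0 := by
    rintro rfl
    apply hd
    have : ((d : ℤ) : Qbar) = 0 := by rw [← hs]; ring
    exact_mod_cast this
  have hsq : (φ s) ^ 2 = s ^ 2 := by
    rw [← map_pow, hs, map_intCast]
  rcases sq_eq_sq_iff_eq_or_eq_neg.mp hsq with h | h
  · exfalso
    have h1 : σ₀ s = s := fix_of_mem_zpowers hmem2 hsN h
    rw [hneg] at h1
    have h2 : (2 : Qbar) * s = 0 := by linear_combination -h1
    rcases mul_eq_zero.mp h2 with h3 | h3
    · exact two_ne_zero h3
    · exact hs0 h3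
  · exact h

/-- **Choice of the auxiliary prime.**  Under the hypotheses of `exists_frobenius_fix_neg`,
outside any finite set there are a prime `p` and a valuation subring `A` over `p` such that every
element of `L ∩ A` is congruent to a rational integer modulo the maximal ideal of `A`, and `d` is
not a square modulo `p`. -/
theorem exists_prime_residue (L : IntermediateField ℚ Qbar) [FiniteDimensional ℚ L]
    {s : Qbar} {d : ℤ} (hd : d ≠ 0) (hs : s ^ 2 = d) (σ₀ : GQ) (hL : ∀ y ∈ L, σ₀ y = y)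
    (hneg : σ₀ s = -s) (T : Finset ℕ) :
    ∃ (p : ℕ) (A : ValuationSubring Qbar), p.Prime ∧ p ∉ T ∧ A.LiesOverPrime p ∧
      (∀ y ∈ L, y ∈ A → ∃ n : ℤ, y - n ∈ A.nonunits) ∧ ¬ IsSquare ((d : ℤ) : ZMod p) := by
  classical
  obtain ⟨p, A, φ, hp, hpT, hAp, hφ, hfix, hφs⟩ :=
    exists_frobenius_fix_neg L hd hs σ₀ hL hneg (T ∪ (2 * d.natAbs).primeFactors)
  have hpT1 : p ∉ T := fun h => hpT (Finset.mem_union_left _ h)
  have hpT2 : ¬ p ∣ 2 * d.natAbs := by
    intro h
    apply hpT
    refine Finset.mem_union_right _ (Nat.mem_primeFactors.mpr ⟨hp, h, ?_⟩)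
    exact Nat.mul_ne_zero two_ne_zero (Int.natAbs_ne_zero.mpr hd)
  have hp2 : p ≠ 2 := by
    rintro rfl
    exact hpT2 (dvd_mul_right _ _)
  have hpd : ¬ (p : ℤ) ∣ d := by
    intro h
    exact hpT2 ((Int.natCast_dvd.mp h).mul_left _)
  exact ⟨p, A, hp, hpT1, hAp, fun y hy hyA => exists_int_residue hp hAp hφ hyA (hfix y hy),
    not_isSquare_of_frobenius_neg hp hAp hφ hs hφs hp2 hpd⟩

/-- An element of `G_ℚ` fixing `x` fixes `ℚ(x)` pointwise. -/
theorem fix_adjoin_simple {σ₀ : GQ} {x : Qbar} (hx : σ₀ x = x) :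
    ∀ y ∈ IntermediateField.adjoin ℚ {x}, σ₀ y = y := by
  have hle : IntermediateField.adjoin ℚ {x} ≤
      IntermediateField.fixedField (Subgroup.zpowers σ₀) := by
    rw [IntermediateField.adjoin_simple_le_iff]
    rintro ⟨g, hg⟩
    obtain ⟨k, rfl⟩ := Subgroup.mem_zpowers_iff.mp hg
    have h4 : σ₀ ∈ MulAction.stabilizer GQ x := MulAction.mem_stabilizer_iff.mpr hx
    exact MulAction.mem_stabilizer_iff.mp (Subgroup.zpow_mem _ h4 k)
  intro y hy
  exact hle hy ⟨σ₀, Subgroup.mem_zpowers σ₀⟩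

/-! ### Arithmetic form -/

open Polynomial

/-- If `x ≡ n` modulo the maximal ideal of `A`, then `P(x) ≡ P(n)` for every integer polynomial
`P`. -/
theorem aeval_sub_eval_mem_nonunits {A : ValuationSubring Qbar} {x : Qbar} (hxA : x ∈ A) {n : ℤ}
    (hxn : x - n ∈ A.nonunits) (P : ℤ[X]) :
    aeval x P - ((P.eval n : ℤ) : Qbar) ∈ A.nonunits := by
  set xA : A := ⟨x, hxA⟩ with hxA'
  set f : A →ₐ[ℤ] Qbar := (A.subtype : A →+* Qbar).toIntAlgHom with hf
  obtain ⟨c, hc⟩ := Polynomial.sub_dvd_eval_sub xA ((n : ℤ) : A) (P.map (algebraMap ℤ A))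
  rw [eval_map_algebraMap, eval_map_algebraMap] at hc
  have h1 : aeval x P = f (aeval xA P) := by
    rw [← aeval_algHom_apply]; rfl
  have h2 : ((P.eval n : ℤ) : Qbar) = f (aeval ((n : ℤ) : A) P) := by
    have : ((n : ℤ) : A) = algebraMap ℤ A n := by simp
    rw [this, aeval_algebraMap_apply, Polynomial.coe_aeval_eq_eval]
    simp
  rw [h1, h2, ← map_sub, hc, map_mul]
  have h3 : f (xA - ((n : ℤ) : A)) = x - n := by
    rw [map_sub, map_intCast]; rfl
  rw [h3]
  change A.valuation ((x - n) * f c) < 1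
  rw [map_mul]
  have hcv : A.valuation (f c) ≤ 1 := (A.valuation_le_one_iff _).mpr c.2
  have hxv : A.valuation (x - n) < 1 := hxn
  calc A.valuation (x - n) * A.valuation (f c) ≤ A.valuation (x - n) * 1 := by gcongr
    _ < 1 := by simpa using hxv

/-- **Arithmetic form of the choice of the auxiliary prime.**  Let `x ∈ ℚ̄` be a root of the
integer polynomial `P` and not a root of the integer polynomial `Q`.  If some `σ₀ ∈ G_ℚ` fixes `x`
and sends a square root `s` of the nonzero integer `d` to `-s`, then outside any finite set of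
primes there are a prime `p` and an integer `n` with `p ∣ P(n)`, `p ∤ Q(n)` and `d` not a square
modulo `p`. -/
theorem exists_prime_int_root (P Q : ℤ[X]) {x : Qbar} (hP : aeval x P = 0) (hQ : aeval x Q ≠ 0)
    {s : Qbar} {d : ℤ} (hd : d ≠ 0) (hs : s ^ 2 = d) (σ₀ : GQ) (hx : σ₀ x = x)
    (hneg : σ₀ s = -s) (T : Finset ℕ) :
    ∃ p : ℕ, p.Prime ∧ p ∉ T ∧ ¬ IsSquare ((d : ℤ) : ZMod p) ∧
      ∃ n : ℤ, (p : ℤ) ∣ P.eval n ∧ ¬ (p : ℤ) ∣ Q.eval n := by
  classical
  obtain ⟨m₁, hm₁, h₁⟩ := exists_bad_integral x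
  obtain ⟨m₂, hm₂, h₂⟩ := exists_bad_unit hQ
  have hxint : IsIntegral ℚ x := Algebra.IsIntegral.isIntegral x
  have : FiniteDimensional ℚ (IntermediateField.adjoin ℚ {x}) :=
    IntermediateField.adjoin.finiteDimensional hxint
  obtain ⟨p, A, hp, hpT, hAp, hres, hnsq⟩ :=
    exists_prime_residue (IntermediateField.adjoin ℚ {x}) hd hs σ₀ (fix_adjoin_simple hx) hneg
      (T ∪ (m₁ * m₂).primeFactors)
  have hpT1 : p ∉ T := fun h => hpT (Finset.mem_union_left _ h)
  have hpm : ¬ p ∣ m₁ * m₂ := by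
    intro h
    apply hpT
    exact Finset.mem_union_right _ (Nat.mem_primeFactors.mpr ⟨hp, h, Nat.mul_ne_zero hm₁ hm₂⟩)
  have hxA : x ∈ A := h₁ p hp (fun h => hpm (h.mul_right _)) A hAp
  have hQv : A.valuation (aeval x Q) = 1 := h₂ p hp (fun h => hpm (h.mul_left _)) A hAp
  obtain ⟨n, hn⟩ := hres x (IntermediateField.mem_adjoin_simple_self ℚ x) hxA
  refine ⟨p, hp, hpT1, hnsq, n, ?_, ?_⟩
  · have h := aeval_sub_eval_mem_nonunits hxA hn P
    rw [hP, zero_sub] at h
    have h' : ((P.eval n : ℤ) : Qbar) ∈ A.nonunits := by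
      have : A.valuation (-((P.eval n : ℤ) : Qbar)) < 1 := h
      rwa [Valuation.map_neg] at this
    exact dvd_of_intCast_mem_nonunits hp hAp h'
  · intro hdvd
    have h := aeval_sub_eval_mem_nonunits hxA hn Q
    have h' : A.valuation ((Q.eval n : ℤ) : Qbar) < 1 :=
      (intCast_mem_nonunits_iff hp hAp _).mpr hdvd
    have h'' : A.valuation (aeval x Q - ((Q.eval n : ℤ) : Qbar)) < 1 := h
    have : A.valuation (aeval x Q) < 1 := by
      have e : aeval x Q = (aeval x Q - ((Q.eval n : ℤ) : Qbar)) + ((Q.eval n : ℤ) : Qbar) := by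
        ring
      rw [e]
      exact lt_of_le_of_lt (Valuation.map_add _ _ _) (max_lt h'' h')
    rw [hQv] at this
    exact lt_irrefl _ this

end Fermat.Agent.S52.C.ChebPrime58
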