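/-
S52 (3-5 switch), route (C), brick "TRANSPORT LINK" (plan #297) -- helper99.

If `σ ∈ G_ℚ` acts trivially on `W[5](ℚ̄)` then `σ` fixes the coordinates of the explicit
5-torsion point `Q(p) = (xQ p, yQ p)` of the short curve `y² = x³ + 27 H(p) x + 54 T(p)`
for every `p = (u, v) ∈ ℚ̄²` with `H(p) = -c₄(W)`, `T(p) = -c₆(W)`.

* `two_nsmul_of_short`, `five_nsmul_of_short` : doubling / 5-torsion on a short Weierstrass curve
  from the cleared-denominator duplication identities (any field, char ≠ 2).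
* `fix_short_of_fix` : triviality of `σ` on `Tors W n` transports to the short curve of the
  invariants (`TorsTransport74`).
* `coords_fixed_of_smul_eq` : `σ • some x y = some x y` gives `σ x = x`, `σ y = y`.
* `coords_fixed` : the link.
* `xA_xB_fixed`, `exists_tstar_fixed` : corollaries in the shape of the hypotheses of
  `Rigid99.exists_tstar`, and the assembled statement about `t*`.
-/
import Mathlib
import Fermat.Prelude.Def_FLTPrelim_Modularity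
import Fermat.Prelude.Def_FLTPrelim_GaloisRep
import Fermat.Agent.S52.Model.TorsTransport74
import Fermat.Agent.S52.Klein.Defs51
import Fermat.Agent.S52.Klein.Rigid99

set_option autoImplicit false

open WeierstrassCurve WeierstrassCurve.Affine WeierstrassCurve.Affine.Point

namespace Fermat.Agent.S52.C.Link99

open Fermat.Agent.S52.Model.ModelClose74 Fermat.Agent.S52.Model.TorsTransport74
open Fermat.Agent.S52.Klein

local notation "Qb" => AlgebraicClosure ℚ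
local notation "GQ" => (AlgebraicClosure ℚ ≃ₐ[ℚ] AlgebraicClosure ℚ)

section generic

variable {F : Type*} [Field F] [DecidableEq F] {W : WeierstrassCurve.Affine F}

/-- Duplication on a short Weierstrass curve from the cleared-denominator identities. -/
theorem two_nsmul_of_short (h1 : W.a₁ = 0) (h2 : W.a₂ = 0) (h3 : W.a₃ = 0) (h2ne : (2 : F) ≠ 0)
    {x1 y1 x2 y2 : F} (hP : W.Nonsingular x1 y1) (hQ : W.Nonsingular x2 y2) (hy : y1 ≠ 0)
    (dx : (3 * x1 ^ 2 + W.a₄) ^ 2 = (x2 + 2 * x1) * (2 * y1) ^ 2)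
    (dy : (3 * x1 ^ 2 + W.a₄) * (x1 - x2) = (y2 + y1) * (2 * y1)) :
    Point.some _ _ hP + Point.some _ _ hP = Point.some _ _ hQ := by
  have h2y : 2 * y1 ≠ 0 := mul_ne_zero h2ne hy
  have hneg : W.negY x1 y1 = -y1 := by
    simp only [negY, h1, h3]; ring
  have hyne : y1 ≠ W.negY x1 y1 := by
    rw [hneg]
    intro h
    apply h2y
    linear_combination h
  rw [add_self_of_Y_ne hyne]
  have hs : W.slope x1 x1 y1 y1 = (3 * x1 ^ 2 + W.a₄) / (2 * y1) := by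
    rw [slope_of_Y_ne rfl hyne, hneg, h1, h2]
    congr 1 <;> ring
  have hX : W.addX x1 x1 (W.slope x1 x1 y1 y1) = x2 := by
    rw [hs]
    simp only [addX, h1, h2]
    field_simp
    linear_combination dx
  have hY : W.addY x1 x1 y1 (W.slope x1 x1 y1 y1) = y2 := by
    simp only [addY, negAddY, negY, hX, h1, h3]
    rw [hs]
    field_simp
    linear_combination dy
  simp only [hX, hY]

/-- A point `P` with `2P = Q`, `2Q = -P` (duplication identities) is killed by `5`. -/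
theorem five_nsmul_of_short (h1 : W.a₁ = 0) (h2 : W.a₂ = 0) (h3 : W.a₃ = 0) (h2ne : (2 : F) ≠ 0)
    {x1 y1 x2 y2 : F} (hP : W.Nonsingular x1 y1) (hQ : W.Nonsingular x2 y2)
    (hy1 : y1 ≠ 0) (hy2 : y2 ≠ 0)
    (dx : (3 * x1 ^ 2 + W.a₄) ^ 2 = (x2 + 2 * x1) * (2 * y1) ^ 2)
    (dy : (3 * x1 ^ 2 + W.a₄) * (x1 - x2) = (y2 + y1) * (2 * y1))
    (ex : (3 * x2 ^ 2 + W.a₄) ^ 2 = (x1 + 2 * x2) * (2 * y2) ^ 2)
    (ey : (3 * x2 ^ 2 + W.a₄) * (x2 - x1) = (-y1 + y2) * (2 * y2)) :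
    (5 : ℤ) • (Point.some _ _ hP : W.Point) = 0 := by
  have hneg : W.negY x1 y1 = -y1 := by
    simp only [negY, h1, h3]; ring
  have hP' : W.Nonsingular x1 (-y1) := by
    have := (nonsingular_neg (W' := W) x1 y1).mpr hP
    rwa [hneg] at this
  have e1 : Point.some _ _ hP + Point.some _ _ hP = Point.some _ _ hQ :=
    two_nsmul_of_short h1 h2 h3 h2ne hP hQ hy1 dx dy
  have e2 : Point.some _ _ hQ + Point.some _ _ hQ = Point.some _ _ hP' :=
    two_nsmul_of_short h1 h2 h3 h2ne hQ hP' hy2 ex ey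
  have e3 : (Point.some _ _ hP' : W.Point) = -Point.some _ _ hP := by
    rw [neg_some]
    simp only [hneg]
  have h5 : (5 : ℤ) • (Point.some _ _ hP : W.Point)
      = ((Point.some _ _ hP + Point.some _ _ hP) + (Point.some _ _ hP + Point.some _ _ hP))
        + Point.some _ _ hP := by
    rw [show (5 : ℤ) = 1 + 1 + 1 + 1 + 1 from rfl]
    simp only [add_smul, one_smul]
    abel
  rw [h5, e1, e2, e3, neg_add_cancel]

end generic

/-- `σ • some x y = some x y` forces `σ` to fix both coordinates. -/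
theorem coords_fixed_of_smul_eq {E : WeierstrassCurve ℚ} (σ : GQ) {x y : Qb}
    (h : (E⁄Qb).Nonsingular x y)
    (hσ : σ • (Point.some _ _ h : (E⁄Qb).Point) = Point.some _ _ h) : σ x = x ∧ σ y = y := by
  rw [algEquiv_smul_def, map_some] at hσ
  have := Point.some.inj hσ
  exact ⟨this.1, this.2⟩

/-- Triviality of `σ` on `W[n]` transports to the short curve of the invariants. -/
theorem fix_short_of_fix (W : WeierstrassCurve ℤ) (n : ℕ) (σ : GQ)
    (hfix : ∀ x : TorsQ (W.map (Int.castRingHom ℚ)) n, σ • x = x)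
    (y : TorsQ (shortCurve (W.c₄ : ℚ) (W.c₆ : ℚ)) n) : σ • y = y := by
  obtain ⟨φ, hφ⟩ := exists_torsEquiv_short W n
  obtain ⟨x, rfl⟩ := φ.surjective y
  rw [← hφ, hfix]

section link

/-- The discriminant of the short curve `y² = x³ - 27 c₄ x - 54 c₆`. -/
lemma shortCurve_Δ (c4 c6 : ℚ) : (shortCurve c4 c6).Δ = 1259712 * (c4 ^ 3 - c6 ^ 2) := by
  simp only [WeierstrassCurve.Δ, WeierstrassCurve.b₂, WeierstrassCurve.b₄, WeierstrassCurve.b₆,
    WeierstrassCurve.b₈, shortCurve_a₁, shortCurve_a₂, shortCurve_a₃, shortCurve_a₄, shortCurve_a₆]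
  ring

lemma shortCurve_Δ_ne_zero {W : WeierstrassCurve ℤ} (hΔ : W.Δ ≠ 0) :
    (shortCurve (W.c₄ : ℚ) (W.c₆ : ℚ)).Δ ≠ 0 := by
  rw [shortCurve_Δ]
  have hrel : (W.c₄ : ℚ) ^ 3 - (W.c₆ : ℚ) ^ 2 = 1728 * (W.Δ : ℚ) := by
    have := W.c_relation
    exact_mod_cast this.symm
  rw [hrel]
  have : (W.Δ : ℚ) ≠ 0 := by exact_mod_cast hΔ
  positivity

lemma short_Qb_Δ_ne_zero {W : WeierstrassCurve ℤ} (hΔ : W.Δ ≠ 0) :
    ((shortCurve (W.c₄ : ℚ) (W.c₆ : ℚ))⁄Qb).Δ ≠ 0 := by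
  show ((shortCurve (W.c₄ : ℚ) (W.c₆ : ℚ)).map (algebraMap ℚ Qb)).Δ ≠ 0
  rw [WeierstrassCurve.map_Δ]
  exact (map_ne_zero_iff _ (algebraMap ℚ Qb).injective).mpr (shortCurve_Δ_ne_zero hΔ)

variable {W : WeierstrassCurve ℤ} {u v : Qb}

lemma short_a₁ : ((shortCurve (W.c₄ : ℚ) (W.c₆ : ℚ))⁄Qb).a₁ = 0 := by
  simp [WeierstrassCurve.baseChange]

lemma short_a₂ : ((shortCurve (W.c₄ : ℚ) (W.c₆ : ℚ))⁄Qb).a₂ = 0 := by
  simp [WeierstrassCurve.baseChange]

lemma short_a₃ : ((shortCurve (W.c₄ : ℚ) (W.c₆ : ℚ))⁄Qb).a₃ = 0 := by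
  simp [WeierstrassCurve.baseChange]

lemma short_a₄ (hH : kH u v = -((W.c₄ : ℤ) : Qb)) :
    ((shortCurve (W.c₄ : ℚ) (W.c₆ : ℚ))⁄Qb).a₄ = 27 * kH u v := by
  rw [hH]
  simp [WeierstrassCurve.baseChange]

lemma short_a₆ (hT : kT u v = -((W.c₆ : ℤ) : Qb)) :
    ((shortCurve (W.c₄ : ℚ) (W.c₆ : ℚ))⁄Qb).a₆ = 54 * kT u v := by
  rw [hT]
  simp [WeierstrassCurve.baseChange]

/-- a point of the short curve in terms of the Klein data. -/
lemma short_nonsingular (hΔ : W.Δ ≠ 0) (hH : kH u v = -((W.c₄ : ℤ) : Qb))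
    (hT : kT u v = -((W.c₆ : ℤ) : Qb)) {x y : Qb}
    (h : y ^ 2 = x ^ 3 + 27 * kH u v * x + 54 * kT u v) :
    ((shortCurve (W.c₄ : ℚ) (W.c₆ : ℚ))⁄Qb).Nonsingular x y := by
  rw [← equation_iff_nonsingular_of_Δ_ne_zero (short_Qb_Δ_ne_zero hΔ), equation_iff, short_a₁,
    short_a₂, short_a₃, short_a₄ hH, short_a₆ hT]
  linear_combination h

/-- a nonsingular point `(x, 0)` of the short curve has `3 x² + a₄ ≠ 0`. -/
lemma short_y_ne_zero (hH : kH u v = -((W.c₄ : ℤ) : Qb)) {x y : Qb}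
    (h : ((shortCurve (W.c₄ : ℚ) (W.c₆ : ℚ))⁄Qb).Nonsingular x y)
    (hd : 3 * x ^ 2 + 27 * kH u v = 0) : y ≠ 0 := by
  rintro rfl
  rw [nonsingular_iff, short_a₁, short_a₂, short_a₃, short_a₄ hH] at h
  rcases h.2 with h' | h'
  · apply h'
    linear_combination -hd
  · apply h'
    ring

/-- **The explicit point `Q(p)` is a 5-torsion point of the short curve.** -/
theorem five_zsmul_Q (hΔ : W.Δ ≠ 0) (hH : kH u v = -((W.c₄ : ℤ) : Qb))
    (hT : kT u v = -((W.c₆ : ℤ) : Qb)) :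
    (5 : ℤ) • (Point.some _ _ (short_nonsingular hΔ hH hT (Q_on_curve u v)) :
      ((shortCurve (W.c₄ : ℚ) (W.c₆ : ℚ))⁄Qb).Point) = 0 := by
  have hP := short_nonsingular hΔ hH hT (Q_on_curve u v)
  have hQ := short_nonsingular hΔ hH hT (twoQ_on_curve u v)
  have h2 : (2 : Qb) ≠ 0 := two_ne_zero
  have hy1 : yQ u v ≠ 0 := by
    intro h0
    refine short_y_ne_zero hH hP ?_ h0
    have := dbl_Q_x u v
    rw [h0] at this
    have h' : (3 * xQ u v ^ 2 + 27 * kH u v) ^ 2 = 0 := by rw [this]; ring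
    exact pow_eq_zero_iff (two_ne_zero) |>.mp h'
  have hy2 : y2Q u v ≠ 0 := by
    intro h0
    refine short_y_ne_zero hH hQ ?_ h0
    have := dbl_twoQ_x u v
    rw [h0] at this
    have h' : (3 * x2Q u v ^ 2 + 27 * kH u v) ^ 2 = 0 := by rw [this]; ring
    exact pow_eq_zero_iff (two_ne_zero) |>.mp h'
  refine five_nsmul_of_short short_a₁ short_a₂ short_a₃ h2 hP hQ hy1 hy2 ?_ ?_ ?_ ?_
  · rw [short_a₄ hH]; exact dbl_Q_x u v
  · rw [short_a₄ hH]; exact dbl_Q_y u v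
  · rw [short_a₄ hH]; exact dbl_twoQ_x u v
  · rw [short_a₄ hH]; exact dbl_twoQ_y u v

/-- **TRANSPORT LINK.** If `σ` acts trivially on `W[5](ℚ̄)` then it fixes the coordinates of the
explicit 5-torsion point `Q(p)`, for every `p` in the fibre of `(H, T)` over `(-c₄, -c₆)`. -/
theorem coords_fixed (hΔ : W.Δ ≠ 0) (σ : GQ)
    (hfix : ∀ x : TorsQ (W.map (Int.castRingHom ℚ)) 5, σ • x = x)
    (hH : kH u v = -((W.c₄ : ℤ) : Qb)) (hT : kT u v = -((W.c₆ : ℤ) : Qb)) :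
    σ (xQ u v) = xQ u v ∧ σ (yQ u v) = yQ u v := by
  have hP := short_nonsingular hΔ hH hT (Q_on_curve u v)
  have h5 := five_zsmul_Q hΔ hH hT
  have hmem : (Point.some _ _ hP : ((shortCurve (W.c₄ : ℚ) (W.c₆ : ℚ))⁄Qb).Point) ∈
      Submodule.torsionBy ℤ ((shortCurve (W.c₄ : ℚ) (W.c₆ : ℚ))⁄Qb).Point ((5 : ℕ) : ℤ) := by
    rw [Submodule.mem_torsionBy_iff]
    exact_mod_cast h5
  have := fix_short_of_fix W 5 σ hfix ⟨_, hmem⟩
  have h' := congrArg Subtype.val this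
  exact coords_fixed_of_smul_eq σ hP h'

end link

section tstar

open Fermat.Agent.S52.Klein.Rigid99 (XA XB X10 tstar)

variable {R : Type*} [CommRing R]

lemma X10_eq_xQ (u v : R) : X10 u v = xQ u v := by
  unfold X10 xQ; ring

lemma kF_eq_kf (u v : R) : Rigid99.kF u v = kf u v := rfl

lemma kFu_eq_kfu (u v : R) : Rigid99.kFu u v = kfu u v := rfl

lemma kFv_eq_kfv (u v : R) : Rigid99.kFv u v = kfv u v := rfl

lemma kH_eq_kH (u v : R) : Rigid99.kH u v = kH u v := rfl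

lemma kT_eq_kT (u v : R) : Rigid99.kT u v = kT u v := rfl

/-- `H` is invariant under the rotation `(u, v) ↦ (v, -u)`. -/
lemma kH_rot (u v : R) : kH v (-u) = kH u v := by
  unfold kH; ring

/-- `T` is invariant under the rotation `(u, v) ↦ (v, -u)`. -/
lemma kT_rot (u v : R) : kT v (-u) = kT u v := by
  unfold kT; ring

lemma pow_five_eq_one {ζ : R} (hζ : ζ ^ 4 + ζ ^ 3 + ζ ^ 2 + ζ + 1 = 0) : ζ ^ 5 = 1 := by
  linear_combination (ζ - 1) * hζ

variable {W : WeierstrassCurve ℤ} {u v : Qb}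

/-- The ten `x`-coordinates of `Rigid99` are fixed by any `σ` acting trivially on `W[5]`. -/
theorem xA_xB_fixed (hΔ : W.Δ ≠ 0) (σ : GQ)
    (hfix : ∀ x : TorsQ (W.map (Int.castRingHom ℚ)) 5, σ • x = x)
    (hH : kH u v = -((W.c₄ : ℤ) : Qb)) (hT : kT u v = -((W.c₆ : ℤ) : Qb))
    {ζ : Qb} (hζ : ζ ^ 4 + ζ ^ 3 + ζ ^ 2 + ζ + 1 = 0) (b : ℕ) :
    σ (XA ζ b u v) = XA ζ b u v ∧ σ (XB ζ b u v) = XB ζ b u v := by
  have h5 : (ζ ^ b) ^ 5 = 1 := by
    rw [← pow_mul, mul_comm, pow_mul, pow_five_eq_one hζ, one_pow]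
  have hH1 : kH (ζ ^ b * u) v = -((W.c₄ : ℤ) : Qb) := by rw [kH_zeta h5, hH]
  have hT1 : kT (ζ ^ b * u) v = -((W.c₆ : ℤ) : Qb) := by rw [kT_zeta h5, hT]
  have hH2 : kH v (-(ζ ^ b * u)) = -((W.c₄ : ℤ) : Qb) := by rw [kH_rot, hH1]
  have hT2 : kT v (-(ζ ^ b * u)) = -((W.c₆ : ℤ) : Qb) := by rw [kT_rot, hT1]
  refine ⟨?_, ?_⟩
  · unfold XA
    rw [X10_eq_xQ]
    exact (coords_fixed hΔ σ hfix hH1 hT1).1
  · unfold XB
    rw [X10_eq_xQ]
    exact (coords_fixed hΔ σ hfix hH2 hT2).1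

/-- `f(p) ≠ 0` for `p` in the fibre over the invariants of a model with `Δ ≠ 0`. -/
theorem kf_ne_zero (hΔ : W.Δ ≠ 0) (hH : kH u v = -((W.c₄ : ℤ) : Qb))
    (hT : kT u v = -((W.c₆ : ℤ) : Qb)) : kf u v ≠ 0 := by
  intro h0
  have hrel := klein_relation u v
  rw [hH, hT, h0] at hrel
  have h1 : ((W.c₄ : ℤ) : Qb) ^ 3 - ((W.c₆ : ℤ) : Qb) ^ 2 = 0 := by
    linear_combination -hrel
  have h2 : ((1728 * W.Δ : ℤ) : Qb) = 0 := by
    rw [W.c_relation]
    push_cast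
    exact h1
  have h3 : (1728 * W.Δ : ℤ) = 0 := by exact_mod_cast h2
  have : W.Δ = 0 := by
    rcases mul_eq_zero.mp h3 with h | h
    · norm_num at h
    · exact h
  exact hΔ this

/-- **The `j = 1728` member and its rationality over the 5-division field.**  For a base point
`p = (u, v)` over the invariants of `W` there is `t ∈ ℚ̄` such that the member
`p + t (f_v, -f_u)(p)` of the twisted family has `T = 0` (so `c₆ = 0`), `H ≠ 0` (so `c₄ ≠ 0`), and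
`t` is fixed by every `σ ∈ G_ℚ` acting trivially on `W[5]`, on `ζ₅` and on `i`. -/
theorem exists_tstar_fixed (hΔ : W.Δ ≠ 0) (hH : kH u v = -((W.c₄ : ℤ) : Qb))
    (hT : kT u v = -((W.c₆ : ℤ) : Qb))
    {ζ i : Qb} (hζ : ζ ^ 4 + ζ ^ 3 + ζ ^ 2 + ζ + 1 = 0) (hi : i ^ 2 = -1) :
    ∃ t : Qb, kT (u + t * kfv u v) (v - t * kfu u v) = 0 ∧
      kH (u + t * kfv u v) (v - t * kfu u v) ≠ 0 ∧
      ∀ σ : GQ, (∀ x : TorsQ (W.map (Int.castRingHom ℚ)) 5, σ • x = x) → σ ζ = ζ → σ i = i →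
        σ t = t := by
  have h30 : (30 : Qb) ≠ 0 := by norm_num
  obtain ⟨t, h1, h2, h3⟩ := Rigid99.exists_tstar ζ i u v hζ hi h30 (kf_ne_zero hΔ hH hT)
  refine ⟨t, h1, h2, fun σ hfix hσζ hσi => ?_⟩
  exact h3 (σ : Qb →+* Qb) hσζ hσi
    (fun b _ => (xA_xB_fixed hΔ σ hfix hH hT hζ b).1)
    (fun b _ => (xA_xB_fixed hΔ σ hfix hH hT hζ b).2)

end tstar

end Fermat.Agent.S52.C.Link99
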