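/-
S52, brick (C)-sigma0, part 2 (helper47): **an element of `G_ℚ` which is trivial on `W[p]` and on
all roots of unity of order prime to `3`, and which moves `√-3` and `√3`.**

For a semistable integral model `W` with `W[p]` irreducible (`p ≠ 2, 3` prime): take `τ` in the
inertia group of a place of `ℚ̄` over `3` with `τ ζ₃ = ζ₃²` (`Lib/InertiaCyclo69`); then
`σ₀ := τ ^ p` is trivial on `W[p]` (`DetCyclo47.inertia_pow_smul_eq`), fixes every root of unity of
order prime to `3` (inertia), and `σ₀ √-3 = (-1)^p √-3 = -√-3`, `σ₀ √3 = σ₀ (√-3 / i) = -√3`.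

This is the Galois element fed to the Chebotarev step of the `j = 1728` route to the irreducibility
of `E'[3]` (reports #167/#189/#198): a prime `r` with Frobenius generating the same group as `σ₀`
has `(3/r) = -1`, and everything fixed by `σ₀` has its residue in `𝔽_r`.
-/
import Mathlib
import Fermat.Agent.S52.C.DetCyclo47
import Fermat.Agent.Lib.InertiaCyclo69
import Fermat.Agent.Lib.FrobeniusExists

set_option autoImplicit false

open WeierstrassCurve WeierstrassCurve.Affine WeierstrassCurve.Affine.Point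

namespace Fermat.Agent.S52.C.SigmaZero47

open Fermat.Agent.ES.Q58.TraceCong20 (RelQbar)
open Fermat.Agent.S52.TopWiring84 (Tors)
open Fermat.Agent.S52.C.DetCyclo47

local notation "Qb" => AlgebraicClosure ℚ
local notation "GQ" => (AlgebraicClosure ℚ ≃ₐ[ℚ] AlgebraicClosure ℚ)

/-- An inertia element at `q` fixes the roots of unity of order prime to `q`. -/
theorem inertia_apply_rootOfUnity {q : ℕ} (hq : q.Prime) {A : ValuationSubring Qb}
    (hA : A.LiesOverPrime q) {τ : GQ} (hτ : τ ∈ A.inertiaSubgroupIn ℚ) {m : ℕ} (hqm : ¬ q ∣ m)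
    {z : Qb} (hz : z ^ m = 1) : τ z = z := by
  have hm0 : m ≠ 0 := fun h0 => hqm (h0 ▸ dvd_zero q)
  have hz0 : z ≠ 0 := by
    rintro rfl
    rw [zero_pow hm0] at hz
    exact zero_ne_one hz
  have hzA : z ∈ A := Fermat.Agent.ES.J.CycloChar8.mem_of_pow_eq_one hm0 hz
  have h1 := Fermat.Agent.S05.Inertia.apply_sub_mem_nonunits hτ hzA
  have hτz : (τ z) ^ m = 1 := by rw [← map_pow, hz, map_one]
  have hη : (τ z * z⁻¹) ^ m = 1 := by
    rw [mul_pow, hτz, inv_pow, hz, inv_one, mul_one]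
  have hvinv : A.valuation (z⁻¹) = 1 := by
    rw [map_inv₀, Fermat.Agent.ES.J.CycloChar8.valuation_eq_one_of_pow_eq_one hm0 hz, inv_one]
  have hη1 : τ z * z⁻¹ - 1 ∈ A.nonunits := by
    have e : τ z * z⁻¹ - 1 = (τ z - z) * z⁻¹ := by
      rw [sub_mul, mul_inv_cancel₀ hz0]
    rw [e, ValuationSubring.mem_nonunits_iff, map_mul, hvinv, mul_one]
    exact (ValuationSubring.mem_nonunits_iff (A := A)).mp h1
  have h2 := Fermat.Agent.ES.J.CycloChar8.eq_one_of_sub_one_mem_nonunits hq hA hqm hη hη1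
  have := congrArg (· * z) h2
  simpa [mul_assoc, inv_mul_cancel₀ hz0] using this

/-- An inertia element at a place over `3` sending `√-3` to `-√-3`. -/
theorem exists_inertia_three_neg_sqrt (A : ValuationSubring Qb) (hA : A.LiesOverPrime 3) :
    ∃ τ ∈ A.inertiaSubgroupIn ℚ, ∀ s : Qb, s ^ 2 = -3 → τ s = -s := by
  obtain ⟨τ, hτI, hτ⟩ := Fermat.Agent.Lib.InertiaCyclo69.exists_mem_inertia_apply_ne
    Nat.prime_three (by norm_num) hA
  refine ⟨τ, hτI, fun s hs => ?_⟩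
  obtain ⟨ζ, hζ⟩ : ∃ ζ : Qb, IsPrimitiveRoot ζ 3 :=
    HasEnoughRootsOfUnity.exists_primitiveRoot Qb 3
  have hτζ : τ ζ = ζ ^ 2 := (hτ ζ hζ).1
  -- `ζ² + ζ + 1 = 0`
  have hcyc : ζ ^ 2 + ζ + 1 = 0 := by
    have h3 : ζ ^ 3 = 1 := hζ.pow_eq_one
    have h1 : ζ ≠ 1 := hζ.ne_one (by norm_num)
    have : (ζ - 1) * (ζ ^ 2 + ζ + 1) = 0 := by ring_nf; rw [h3]; ring
    exact (mul_eq_zero.mp this).resolve_left (sub_ne_zero.mpr h1)
  -- `w = 2ζ + 1` is a square root of `-3`, and `τ w = -w`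
  set w : Qb := 2 * ζ + 1 with hw
  have hw2 : w ^ 2 = -3 := by rw [hw]; linear_combination 4 * hcyc
  have hτw : τ w = -w := by
    rw [hw, map_add, map_mul, map_one, map_ofNat, hτζ]
    linear_combination 2 * hcyc
  have hsw : s = w ∨ s = -w := by
    have : (s - w) * (s + w) = 0 := by ring_nf; rw [hs, hw2]; ring
    rcases mul_eq_zero.mp this with h | h
    · exact Or.inl (sub_eq_zero.mp h)
    · exact Or.inr (eq_neg_of_add_eq_zero_left h)
  rcases hsw with rfl | rfl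
  · exact hτw
  · rw [map_neg, hτw]

/-- odd powers of an element negating `s` negate `s`. -/
theorem pow_apply_of_apply_eq_neg {τ : GQ} {s : Qb} (h : τ s = -s) {n : ℕ} (hn : Odd n) :
    (τ ^ n) s = -s := by
  have key : ∀ k : ℕ, (τ ^ k) s = (-1) ^ k * s := by
    intro k
    induction k with
    | zero => simp
    | succ k ih =>
      rw [pow_succ, AlgEquiv.mul_apply, h, map_neg, ih, pow_succ]
      ring
  rw [key n, hn.neg_one_pow]
  ring

/-- powers of an element fixing `z` fix `z`. -/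
theorem pow_apply_of_apply_eq {τ : GQ} {z : Qb} (h : τ z = z) (n : ℕ) : (τ ^ n) z = z := by
  induction n with
  | zero => simp
  | succ k ih => rw [pow_succ, AlgEquiv.mul_apply, h, ih]

/-- **The element `σ₀`.**  For a semistable integral model `W` with `Δ ≠ 0`, satisfying the
Eichler–Shimura relation on torsion, and with `W[p]` irreducible (`p ≠ 2, 3`), there is `σ₀ ∈ G_ℚ`
which acts trivially on `W[p](ℚ̄)` and on every root of unity of order prime to `3`, and which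
negates the square roots of `-3` and of `3`. -/
theorem exists_sigma0 {p : ℕ} [hp : Fact p.Prime] (hp2 : p ≠ 2) (hp3 : p ≠ 3)
    (W : WeierstrassCurve ℤ) (hΔ : W.Δ ≠ 0) (hss : W.IsSemistableModel) (hrel : RelQbar W)
    (hirr : W.ModRepIsIrreducible p) :
    ∃ σ₀ : GQ, (∀ x : Tors W p, σ₀ • x = x) ∧
      (∀ (m : ℕ) (z : Qb), ¬ 3 ∣ m → z ^ m = 1 → σ₀ z = z) ∧
      (∀ s : Qb, s ^ 2 = -3 → σ₀ s = -s) ∧ (∀ s : Qb, s ^ 2 = 3 → σ₀ s = -s) := by
  obtain ⟨A, -, hA, -⟩ := Fermat.Agent.Lib.exists_isFrobeniusAt 3 Nat.prime_three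
  obtain ⟨τ, hτI, hτ⟩ := exists_inertia_three_neg_sqrt A hA
  have hns := exists_not_isScalarOn hp2 hΔ hirr
  have hodd : Odd p := hp.out.odd_of_ne_two hp2
  have hroots : ∀ (m : ℕ) (z : Qb), ¬ 3 ∣ m → z ^ m = 1 → (τ ^ p) z = z := fun m z hm hz =>
    pow_apply_of_apply_eq (inertia_apply_rootOfUnity Nat.prime_three hA hτI hm hz) p
  have hneg : ∀ s : Qb, s ^ 2 = -3 → (τ ^ p) s = -s := fun s hs =>
    pow_apply_of_apply_eq_neg (hτ s hs) hodd
  refine ⟨τ ^ p, fun x => ?_, hroots, hneg, fun s hs => ?_⟩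
  · exact inertia_pow_smul_eq hΔ hss hrel hp2 hns Nat.prime_three (Ne.symm hp3) A hA hτI x
  · -- `√3 = √-3 / i`
    obtain ⟨i, hi⟩ : ∃ i : Qb, i ^ 2 = -1 := IsAlgClosed.exists_pow_nat_eq (-1) (by norm_num)
    have hi4 : i ^ 4 = 1 := by
      have : i ^ 4 = (i ^ 2) ^ 2 := by ring
      rw [this, hi]; norm_num
    have hi0 : i ≠ 0 := by
      rintro rfl
      norm_num at hi
    have h1 : (τ ^ p) i = i := hroots 4 i (by norm_num) hi4
    have h2 : (τ ^ p) (i * s) = -(i * s) := hneg (i * s) (by rw [mul_pow, hi, hs]; norm_num)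
    rw [map_mul, h1] at h2
    have : i * ((τ ^ p) s + s) = 0 := by rw [mul_add, h2]; ring
    exact eq_neg_of_add_eq_zero_left ((mul_eq_zero.mp this).resolve_left hi0)

/-- The case `p = 5` used by S52. -/
theorem exists_sigma0_five (W : WeierstrassCurve ℤ) (hΔ : W.Δ ≠ 0) (hss : W.IsSemistableModel)
    (hrel : RelQbar W) (hirr : W.ModRepIsIrreducible 5) :
    ∃ σ₀ : GQ, (∀ x : Tors W 5, σ₀ • x = x) ∧ (∀ z : Qb, z ^ 5 = 1 → σ₀ z = z) ∧
      (∀ z : Qb, z ^ 4 = 1 → σ₀ z = z) ∧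
      (∀ s : Qb, s ^ 2 = -3 → σ₀ s = -s) ∧ (∀ s : Qb, s ^ 2 = 3 → σ₀ s = -s) := by
  have : Fact (Nat.Prime 5) := ⟨Nat.prime_five⟩
  obtain ⟨σ₀, h1, h2, h3, h4⟩ := exists_sigma0 (p := 5) (by norm_num) (by norm_num) W hΔ hss hrel hirr
  exact ⟨σ₀, h1, fun z hz => h2 5 z (by norm_num) hz, fun z hz => h2 4 z (by norm_num) hz, h3, h4⟩

end Fermat.Agent.S52.C.SigmaZero47
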