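/-
S52, brick (C)-glue, part 2 (helper58): the Galois element `σ₀`.

`W` a semistable integral Weierstrass model with `Δ ≠ 0` satisfying the Eichler–Shimura relation
on torsion (`TraceCong20.RelQbar`, the output of Programme Q).

* `inertia_pow_fix` : for primes `q ≠ λ`, `λ` odd, the `λ`-th power of every element of an inertia
  group over `q` acts trivially on `W[λ](ℚ̄)`.  At a good prime this is PART III-good of Programme
  Q; at a multiplicative prime the inertia group has a nonzero fixed point `Q₁` (PART III-mult), a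
  Frobenius element `φ` at a good auxiliary prime `ℓ` generating the same group as `τ` on
  `ℚ(W[λ], ζ_λ)` fixes `Q₁` and `ζ_λ`, hence `ℓ ≡ 1 (mod λ)` and the Eichler–Shimura relation at
  `Q₁` gives `a_ℓ ≡ 2`, so `(φ - 1)² = 0` on `W[λ]` and `φ^λ = 1` there.  (No Weil pairing, no Tate
  curve.)
* `exists_sigma_zero` : from an element of an inertia group over `3` which moves `√-3` one gets
  `σ₀ ∈ G_ℚ` acting trivially on `W[5]`, fixing all roots of unity of order prime to `3`, and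
  sending `√3` to `-√3`.
* `exists_aux_prime` : the resulting choice of the auxiliary prime (via `ChebPrime58`).
-/
import Mathlib
import Fermat.Agent.ES.Q58.InertiaFinal98
import Fermat.Agent.ES.Q58.TraceCong20
import Fermat.Agent.ES.P36.ZetaUnr26
import Fermat.Agent.S52.C.ChebPrime58

set_option autoImplicit false

open WeierstrassCurve WeierstrassCurve.Affine WeierstrassCurve.Affine.Point

namespace Fermat.Agent.S52.C.SigmaZero58

open Fermat.Agent.ES.Q58.TraceCong20 (RelQbar)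
open Fermat.Agent.ES.Q58 Fermat.Agent.ES.J.CycloChar8

local notation "Qb" => AlgebraicClosure ℚ
local notation "GQ" => (AlgebraicClosure ℚ ≃ₐ[ℚ] AlgebraicClosure ℚ)

attribute [local instance] Fermat.Agent.Lib.FrobeniusExists.isGalois_Qbar
  Fermat.Agent.Lib.FrobeniusExists.isIntegral_Qbar

/-! ### Frobenius elements and roots of unity -/

/-- A Frobenius element at `A | ℓ` raises roots of unity of order prime to `ℓ` to the `ℓ`-th
power. -/
theorem frob_rootOfUnity {A : ValuationSubring Qb} {ℓ : ℕ} (hℓ : ℓ.Prime)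
    (hA : A.LiesOverPrime ℓ) {φ : GQ} (hφ : A.IsFrobeniusAt φ ℓ) {m : ℕ} (hm : ¬ ℓ ∣ m)
    {ζ : Qb} (hζ : ζ ^ m = 1) : φ ζ = ζ ^ ℓ := by
  have hm0 : m ≠ 0 := fun h0 => hm (h0 ▸ dvd_zero ℓ)
  have hζ0 : ζ ≠ 0 := by
    rintro rfl
    rw [zero_pow hm0] at hζ
    exact zero_ne_one hζ
  have hζA : ζ ∈ A := mem_of_pow_eq_one hm0 hζ
  have h1 := frob_apply_sub_pow_mem_nonunits hφ hζA
  have hζℓ : (ζ ^ ℓ) ^ m = 1 := by rw [← pow_mul, mul_comm, pow_mul, hζ, one_pow]
  have hζℓ0 : ζ ^ ℓ ≠ 0 := pow_ne_zero _ hζ0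
  have hφζ : (φ ζ) ^ m = 1 := by rw [← map_pow, hζ, map_one]
  have hη : (φ ζ * (ζ ^ ℓ)⁻¹) ^ m = 1 := by
    rw [mul_pow, hφζ, inv_pow, hζℓ, inv_one, mul_one]
  have hvinv : A.valuation ((ζ ^ ℓ)⁻¹) = 1 := by
    rw [map_inv₀, valuation_eq_one_of_pow_eq_one hm0 hζℓ, inv_one]
  have hη1 : φ ζ * (ζ ^ ℓ)⁻¹ - 1 ∈ A.nonunits := by
    have e : φ ζ * (ζ ^ ℓ)⁻¹ - 1 = (φ ζ - ζ ^ ℓ) * (ζ ^ ℓ)⁻¹ := by
      rw [sub_mul, mul_inv_cancel₀ hζℓ0]
    rw [e, ValuationSubring.mem_nonunits_iff, map_mul, hvinv, mul_one]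
    exact (ValuationSubring.mem_nonunits_iff (A := A)).mp h1
  have h2 := eq_one_of_sub_one_mem_nonunits hℓ hA hm hη hη1
  have := congrArg (· * ζ ^ ℓ) h2
  simpa [mul_assoc, inv_mul_cancel₀ hζℓ0] using this

/-! ### Restriction to a normal subfield -/

/-- Two automorphisms with the same restriction to `N` agree on `N`. -/
theorem eqOn_of_restrict_eq {N : IntermediateField ℚ Qb} [Normal ℚ N] {g h : GQ}
    (heq : AlgEquiv.restrictNormalHom N g = AlgEquiv.restrictNormalHom N h) :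
    ∀ y ∈ N, g y = h y := by
  intro y hy
  have h1 : algebraMap N Qb ((AlgEquiv.restrictNormalHom N g) ⟨y, hy⟩) =
      g (algebraMap N Qb ⟨y, hy⟩) := AlgEquiv.restrictNormal_commutes g N ⟨y, hy⟩
  have h2 : algebraMap N Qb ((AlgEquiv.restrictNormalHom N h) ⟨y, hy⟩) =
      h (algebraMap N Qb ⟨y, hy⟩) := AlgEquiv.restrictNormal_commutes h N ⟨y, hy⟩
  rw [heq] at h1
  exact h1.symm.trans h2

/-- If the restriction of `h` to `N` is a power of the restriction of `g`, then `h` agrees on `N`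
with a power of `g`. -/
theorem exists_zpow_restrict_eq {N : IntermediateField ℚ Qb} [Normal ℚ N] {g h : GQ}
    (hmem : AlgEquiv.restrictNormalHom N h ∈ Subgroup.zpowers (AlgEquiv.restrictNormalHom N g)) :
    ∃ k : ℤ, AlgEquiv.restrictNormalHom N h = AlgEquiv.restrictNormalHom N (g ^ k) := by
  obtain ⟨k, hk⟩ := Subgroup.mem_zpowers_iff.mp hmem
  exact ⟨k, by rw [map_zpow, hk]⟩

/-! ### A unipotent operator -/

/-- If `(g - 1)² = 0` on a `g`-stable subgroup `S`, then `g ^ k = 1 + k (g - 1)` on `S`. -/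
theorem pow_smul_of_sq_zero {G M : Type*} [Group G] [AddCommGroup M] [DistribMulAction G M]
    (g : G) (S : AddSubgroup M) (hS : ∀ x ∈ S, g • x ∈ S)
    (hrel : ∀ x ∈ S, g • g • x - 2 • (g • x) + x = 0) :
    ∀ (k : ℕ), ∀ x ∈ S, g ^ k • x = x + k • (g • x - x) := by
  intro k
  induction k with
  | zero => intro x _; simp
  | succ k ih =>
    intro x hx
    have h1 : g • g • x - g • x = g • x - x := by
      have := hrel x hx
      rw [two_nsmul] at this
      have h2 : g • g • x = g • x + g • x - x := by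
        rw [eq_sub_iff_add_eq, ← sub_eq_zero]
        rw [← this]; abel
      rw [h2]; abel
    rw [pow_succ, mul_smul, ih (g • x) (hS x hx), h1, succ_nsmul]
    abel

/-! ### The Eichler–Shimura relation at a Frobenius element with a fixed point -/

/-- The points of the base change to `ℚ̄` of an integral model. -/
abbrev Pt (W : WeierstrassCurve ℤ) : Type := ((W.map (Int.castRingHom ℚ))⁄Qb).Point

/-- The subgroup of points killed by `n`. -/
noncomputable def torsSub (W : WeierstrassCurve ℤ) (n : ℕ) : AddSubgroup (Pt W) :=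
  (nsmulAddMonoidHom (α := Pt W) n).ker

theorem mem_torsSub {W : WeierstrassCurve ℤ} {n : ℕ} {Q : Pt W} :
    Q ∈ torsSub W n ↔ n • Q = 0 := by
  rw [torsSub, AddMonoidHom.mem_ker, nsmulAddMonoidHom_apply]

theorem smul_mem_torsSub {W : WeierstrassCurve ℤ} {n : ℕ} (g : GQ) {Q : Pt W}
    (hQ : Q ∈ torsSub W n) : g • Q ∈ torsSub W n := by
  rw [mem_torsSub] at hQ ⊢
  have h : g • (n • Q) = n • (g • Q) := map_nsmul (DistribSMul.toAddMonoidHom (Pt W) g) n Q
  rw [← h, hQ]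
  exact smul_zero (A := Pt W) g

/-- An integer multiple of `n` kills the points killed by `n`. -/
theorem zsmul_eq_zero_of_dvd {W : WeierstrassCurve ℤ} {n : ℕ} {m : ℤ} (h : (n : ℤ) ∣ m)
    {Q : Pt W} (hQ : n • Q = 0) : m • Q = 0 := by
  obtain ⟨c, rfl⟩ := h
  rw [mul_comm, mul_zsmul, natCast_zsmul, hQ, zsmul_zero]

/-- **Unipotence.**  Let `φ` be a Frobenius element at a good prime `ℓ ≡ 1 (mod λ)` fixing a
nonzero point `Q₁` of order `λ`.  Then `φ ^ λ` acts trivially on `W[λ]`. -/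
theorem frob_pow_fix {W : WeierstrassCurve ℤ} (hrel : RelQbar W) {ℓ : ℕ} (hℓ : ℓ.Prime)
    (hgood : W.IsGoodPrimeFor ℓ) {lam : ℕ} (hlam : lam.Prime) (hlam2 : lam ≠ 2)
    (hℓlam : ℓ ≠ lam) (hℓ1 : (lam : ℤ) ∣ (ℓ : ℤ) - 1) {A : ValuationSubring Qb} {φ : GQ}
    (hA : A.LiesOverPrime ℓ) (hφ : A.IsFrobeniusAt φ ℓ) {Q₁ : Pt W} (hQ₁ : lam • Q₁ = 0)
    (hQ₁0 : Q₁ ≠ 0) (hfix : φ • Q₁ = Q₁) :
    ∀ Q : Pt W, lam • Q = 0 → φ ^ lam • Q = Q := by
  have hodd : Odd lam := hlam.odd_of_ne_two hlam2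
  have hndvd : ¬ ℓ ∣ lam := fun h => hℓlam ((Nat.prime_dvd_prime_iff_eq hℓ hlam).mp h)
  set a : ℤ := W.apOfModel ℓ with ha
  -- the relation at the fixed point
  have r1 := hrel ℓ hℓ hgood lam hodd hndvd A φ hA hφ Q₁ hQ₁
  rw [hfix, hfix] at r1
  have r1' : ((1 : ℤ) - a + (ℓ : ℤ)) • Q₁ = 0 := by
    rw [add_zsmul, sub_zsmul, one_zsmul, natCast_zsmul]
    exact r1
  have hord : addOrderOf Q₁ = lam := by
    have hdvd : addOrderOf Q₁ ∣ lam := addOrderOf_dvd_of_nsmul_eq_zero hQ₁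
    rcases (Nat.dvd_prime hlam).mp hdvd with h | h
    · exact absurd (AddMonoid.addOrderOf_eq_one_iff.mp h) hQ₁0
    · exact h
  have hd1 : (lam : ℤ) ∣ (1 : ℤ) - a + (ℓ : ℤ) := by
    have := (addOrderOf_dvd_iff_zsmul_eq_zero (x := Q₁) (i := (1 : ℤ) - a + (ℓ : ℤ))).mpr r1'
    rwa [hord] at this
  have hd2 : (lam : ℤ) ∣ a - 2 := by
    have : a - 2 = ((ℓ : ℤ) - 1) - ((1 : ℤ) - a + (ℓ : ℤ)) := by ring
    rw [this]
    exact dvd_sub hℓ1 hd1
  -- the relation on the whole torsion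
  have hrelS : ∀ Q ∈ torsSub W lam, φ • φ • Q - 2 • (φ • Q) + Q = 0 := by
    intro Q hQ
    have hQ' : lam • Q = 0 := mem_torsSub.mp hQ
    have hφQ : lam • (φ • Q) = 0 := mem_torsSub.mp (smul_mem_torsSub φ hQ)
    have r := hrel ℓ hℓ hgood lam hodd hndvd A φ hA hφ Q hQ'
    have e1 : a • (φ • Q) = 2 • (φ • Q) := by
      have h0 : (a - 2) • (φ • Q) = 0 := zsmul_eq_zero_of_dvd hd2 hφQ
      have : a = (a - 2) + 2 := by ring
      rw [this, add_zsmul, h0, zero_add]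
      rw [← natCast_zsmul]; rfl
    have e2 : ℓ • Q = Q := by
      have h0 : ((ℓ : ℤ) - 1) • Q = 0 := zsmul_eq_zero_of_dvd hℓ1 hQ'
      have : (ℓ : ℤ) • Q = Q := by
        have h3 : (ℓ : ℤ) = ((ℓ : ℤ) - 1) + 1 := by ring
        rw [h3, add_zsmul, h0, zero_add, one_zsmul]
      rwa [natCast_zsmul] at this
    rw [e1, e2] at r
    exact r
  intro Q hQ
  have hQS : Q ∈ torsSub W lam := mem_torsSub.mpr hQ
  have key := pow_smul_of_sq_zero φ (torsSub W lam) (fun x hx => smul_mem_torsSub φ hx) hrelS lam Q hQS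
  rw [key, nsmul_sub, mem_torsSub.mp (smul_mem_torsSub φ hQS), hQ, sub_zero, add_zero]

/-! ### Coordinates -/

open Fermat.Agent.ES.Q58.TraceCong20 (xc yc)

theorem xc_smul {W : WeierstrassCurve ℤ} (g : GQ) (Q : Pt W) : xc (g • Q) = g (xc Q) := by
  rcases Q with _ | ⟨x, y, hxy⟩
  · exact (map_zero g).symm
  · rfl

theorem yc_smul {W : WeierstrassCurve ℤ} (g : GQ) (Q : Pt W) : yc (g • Q) = g (yc Q) := by
  rcases Q with _ | ⟨x, y, hxy⟩
  · exact (map_zero g).symm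
  · rfl

theorem xc_mem_torsField {W : WeierstrassCurve ℤ} {n : ℕ} {Q : Pt W} (hQ : n • Q = 0) :
    xc Q ∈ CoordField13.torsField (W.map (Int.castRingHom ℚ)) n := by
  rcases Q with _ | ⟨x, y, hxy⟩
  · exact zero_mem _
  · exact CoordField13.x_mem_torsField hQ

theorem yc_mem_torsField {W : WeierstrassCurve ℤ} {n : ℕ} {Q : Pt W} (hQ : n • Q = 0) :
    yc Q ∈ CoordField13.torsField (W.map (Int.castRingHom ℚ)) n := by
  rcases Q with _ | ⟨x, y, hxy⟩
  · exact zero_mem _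
  · exact CoordField13.y_mem_torsField hQ

/-- An automorphism fixing both coordinates of a point fixes the point. -/
theorem smul_eq_self_of_coord {W : WeierstrassCurve ℤ} (g : GQ) (Q : Pt W)
    (hx : g (xc Q) = xc Q) (hy : g (yc Q) = yc Q) : g • Q = Q := by
  have := Fermat.Agent.ES.Q58.TraceCong20.smul_eq_smul_of_coord g 1 Q (by rw [hx]; rfl)
    (by rw [hy]; rfl)
  rwa [one_smul] at this

/-! ### Inertia acts unipotently on `W[λ]` -/

/-- The subgroup of `G_ℚ` acting trivially on the points killed by `n`. -/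
noncomputable def trivSub (W : WeierstrassCurve ℤ) (n : ℕ) : Subgroup GQ where
  carrier := {g | ∀ Q : Pt W, n • Q = 0 → g • Q = Q}
  one_mem' := fun Q _ => one_smul _ Q
  mul_mem' := by
    intro g h hg hh Q hQ
    rw [mul_smul, hh Q hQ, hg Q hQ]
  inv_mem' := by
    intro g hg Q hQ
    rw [inv_smul_eq_iff, hg Q hQ]

theorem mem_trivSub {W : WeierstrassCurve ℤ} {n : ℕ} {g : GQ} :
    g ∈ trivSub W n ↔ ∀ Q : Pt W, n • Q = 0 → g • Q = Q := Iff.rfl

/-- **Inertia acts unipotently.**  For a semistable integral model satisfying the Eichler–Shimura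
relation, primes `q ≠ λ` with `λ` odd, and `τ` in an inertia group over `q`: `τ ^ λ` acts trivially
on `W[λ](ℚ̄)`. -/
theorem inertia_pow_fix (W : WeierstrassCurve ℤ) (hΔ : W.Δ ≠ 0) (hss : W.IsSemistableModel)
    (hrel : RelQbar W) {q lam : ℕ} (hq : q.Prime) (hlam : lam.Prime) (hlam2 : lam ≠ 2)
    (hne : lam ≠ q) {P : ValuationSubring Qb} (hP : P.LiesOverPrime q) {τ : GQ}
    (hτ : τ ∈ P.inertiaSubgroupIn ℚ) (Q : Pt W) (hQ : lam • Q = 0) : τ ^ lam • Q = Q := by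
  classical
  by_cases hgood : W.IsGoodPrimeFor q
  · have hτ' : τ ^ lam ∈ P.inertiaSubgroupIn ℚ := Subgroup.pow_mem _ hτ lam
    exact InertiaAsm98.inertia_fix_of_good W (n := 1) hq hlam hlam2 hne.symm hgood hP hτ' Q
      (by simpa using hQ)
  · have hqΔ : (q : ℤ) ∣ W.Δ := not_not.mp hgood
    have hqc : ¬ (q : ℤ) ∣ W.c₄ := hss q hq hqΔ
    obtain ⟨S, hcard, hkill, hfixS⟩ :=
      InertiaFinal98.multFix W hΔ hq hqΔ hqc hlam hlam2 hne 1 P hP
    -- a nonzero fixed point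
    have h1 : 1 < S.card := lt_of_lt_of_le hlam.one_lt (by simpa using hcard)
    obtain ⟨Q₁, hQ₁S, hQ₁0⟩ := Finset.exists_mem_ne h1 (0 : Pt W)
    have hQ₁ : lam • Q₁ = 0 := by simpa using hkill Q₁ hQ₁S
    have hτQ₁ : τ • Q₁ = Q₁ := hfixS τ hτ Q₁ hQ₁S
    -- a primitive root of unity
    have : NeZero ((lam : ℕ) : Qb) := ⟨Nat.cast_ne_zero.mpr hlam.ne_zero⟩
    obtain ⟨ζ, hζ⟩ : ∃ ζ : Qb, IsPrimitiveRoot ζ lam :=
      HasEnoughRootsOfUnity.exists_primitiveRoot Qb lam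
    have hqlam : ¬ q ∣ lam := fun h => hne ((Nat.prime_dvd_prime_iff_eq hq hlam).mp h).symm
    have hτζ : τ ζ = ζ :=
      Fermat.Agent.ES.P36.ZetaUnr26.inertia_fixes_rootOfUnity hq hP hqlam hζ.pow_eq_one hτ
    -- the field
    have hodd : Odd lam := hlam.odd_of_ne_two hlam2
    have hKfin : FiniteDimensional ℚ (CoordField13.torsField (W.map (Int.castRingHom ℚ)) lam) :=
      CoordField13.finiteDimensional_torsField hodd
    have hζint : IsIntegral ℚ ζ := Algebra.IsIntegral.isIntegral ζ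
    have : FiniteDimensional ℚ (IntermediateField.adjoin ℚ {ζ}) :=
      IntermediateField.adjoin.finiteDimensional hζint
    set M : IntermediateField ℚ Qb :=
      CoordField13.torsField (W.map (Int.castRingHom ℚ)) lam ⊔ IntermediateField.adjoin ℚ {ζ} with hM
    have hMfin : FiniteDimensional ℚ M := IntermediateField.finiteDimensional_sup _ _
    obtain ⟨N, hfin, hnorm, hMN⟩ : ∃ N : IntermediateField ℚ Qb,
        FiniteDimensional ℚ N ∧ Normal ℚ N ∧ M ≤ N :=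
      ⟨IntermediateField.normalClosure ℚ M Qb, normalClosure.is_finiteDimensional ℚ M Qb,
        normalClosure.normal ℚ M Qb, IntermediateField.le_normalClosure M⟩
    have hgal : IsGalois ℚ N := ⟨⟩
    have hKN : CoordField13.torsField (W.map (Int.castRingHom ℚ)) lam ≤ N := le_trans le_sup_left hMN
    have hζN : ζ ∈ N := hMN (le_sup_right (a := CoordField13.torsField (W.map (Int.castRingHom ℚ)) lam)
      (IntermediateField.mem_adjoin_simple_self ℚ ζ))
    -- Chebotarev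
    obtain ⟨ℓ, A, φ, hℓ, hℓT, hA, hφ, hgen⟩ :=
      Fermat.Agent.ES.GAL.ChebQbar23.exists_frobenius_zpowers_eq N
        (AlgEquiv.restrictNormalHom N τ) (W.Δ.natAbs.primeFactors ∪ {lam})
    have hℓgood : W.IsGoodPrimeFor ℓ := by
      intro hdvd
      apply hℓT
      refine Finset.mem_union_left _ (Nat.mem_primeFactors.mpr ⟨hℓ, ?_, Int.natAbs_ne_zero.mpr hΔ⟩)
      exact Int.natCast_dvd.mp hdvd
    have hℓlam : ℓ ≠ lam := fun h => hℓT (Finset.mem_union_right _ (by rw [h]; simp))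
    have hmem1 : AlgEquiv.restrictNormalHom N φ ∈
        Subgroup.zpowers (AlgEquiv.restrictNormalHom N τ) := by
      rw [← hgen]; exact Subgroup.mem_zpowers _
    have hmem2 : AlgEquiv.restrictNormalHom N τ ∈
        Subgroup.zpowers (AlgEquiv.restrictNormalHom N φ) := by
      rw [hgen]; exact Subgroup.mem_zpowers _
    -- `φ` fixes `ζ`, hence `ℓ ≡ 1`
    have hφζ : φ ζ = ζ := ChebPrime58.fix_of_mem_zpowers hmem1 hζN hτζ
    have hℓndvd : ¬ ℓ ∣ lam := fun h => hℓlam ((Nat.prime_dvd_prime_iff_eq hℓ hlam).mp h)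
    have hφζ' : φ ζ = ζ ^ ℓ := frob_rootOfUnity hℓ hA hφ hℓndvd hζ.pow_eq_one
    have hℓ1 : (lam : ℤ) ∣ (ℓ : ℤ) - 1 := by
      have h2 : ζ ^ ℓ = ζ ^ 1 := by rw [← hφζ', hφζ, pow_one]
      have h3 := modEq_of_pow_eq_pow hζ hlam.ne_zero h2
      have h4 := (Nat.modEq_iff_dvd.mp h3)
      have h5 : (lam : ℤ) ∣ -((ℓ : ℤ) - 1) := by
        have : -((ℓ : ℤ) - 1) = ((1 : ℕ) : ℤ) - (ℓ : ℤ) := by push_cast; ring
        rw [this]; exact h4
      exact (dvd_neg.mp h5)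
    -- `φ` fixes `Q₁`
    have hφQ₁ : φ • Q₁ = Q₁ := by
      have hx : xc Q₁ ∈ N := hKN (xc_mem_torsField hQ₁)
      have hy : yc Q₁ ∈ N := hKN (yc_mem_torsField hQ₁)
      have hτx : τ (xc Q₁) = xc Q₁ := by rw [← xc_smul, hτQ₁]
      have hτy : τ (yc Q₁) = yc Q₁ := by rw [← yc_smul, hτQ₁]
      exact smul_eq_self_of_coord φ Q₁ (ChebPrime58.fix_of_mem_zpowers hmem1 hx hτx)
        (ChebPrime58.fix_of_mem_zpowers hmem1 hy hτy)
    -- unipotence of `φ`
    have hφlam : φ ^ lam ∈ trivSub W lam :=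
      frob_pow_fix hrel hℓ hℓgood hlam hlam2 hℓlam hℓ1 hA hφ hQ₁ hQ₁0 hφQ₁
    -- transfer to `τ`
    obtain ⟨k, hk⟩ := exists_zpow_restrict_eq hmem2
    have hres : AlgEquiv.restrictNormalHom N (τ ^ lam) =
        AlgEquiv.restrictNormalHom N ((φ ^ lam) ^ k) := by
      rw [map_pow, hk, map_zpow, map_zpow, map_pow, ← zpow_natCast, ← zpow_natCast, ← zpow_mul,
        ← zpow_mul, mul_comm]
    have hagree : ∀ x ∈ CoordField13.torsField (W.map (Int.castRingHom ℚ)) lam, (τ ^ lam) x = ((φ ^ lam) ^ k) x :=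
      fun x hx => eqOn_of_restrict_eq hres x (hKN hx)
    have h2 : τ ^ lam • Q = ((φ ^ lam) ^ k) • Q := CoordField13.smul_eq_of_eqOn hagree hQ
    rw [h2]
    exact (Subgroup.zpow_mem _ hφlam k) Q hQ

/-! ### The element `σ₀` -/

/-- If `τ s = -s` then `τ ^ k s = (-1) ^ k s`. -/
theorem pow_apply_of_neg {τ : GQ} {s : Qb} (h : τ s = -s) (k : ℕ) :
    (τ ^ k) s = (-1) ^ k * s := by
  induction k with
  | zero => simp
  | succ k ih =>
    rw [pow_succ, AlgEquiv.mul_apply, h, map_neg, ih, pow_succ]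
    ring

/-- **The element `σ₀`.**  Let `W` be a semistable integral model satisfying the Eichler–Shimura
relation and let `τ` be an element of an inertia group over `3` with `τ √-3 = -√-3`.  Then
`σ₀ = τ⁵` acts trivially on `W[5](ℚ̄)`, fixes every root of unity of order prime to `3`, and sends
every square root of `3` to its negative. -/
theorem exists_sigma_zero (W : WeierstrassCurve ℤ) (hΔ : W.Δ ≠ 0) (hss : W.IsSemistableModel)
    (hrel : RelQbar W) {P : ValuationSubring Qb} (hP : P.LiesOverPrime 3) {τ : GQ}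
    (hτ : τ ∈ P.inertiaSubgroupIn ℚ) (hτ3 : ∀ x : Qb, x ^ 2 = -3 → τ x = -x) :
    ∃ σ₀ : GQ, (∀ Q : Pt W, 5 • Q = 0 → σ₀ • Q = Q) ∧
      (∀ m : ℕ, ¬ 3 ∣ m → ∀ ζ : Qb, ζ ^ m = 1 → σ₀ ζ = ζ) ∧
      (∀ s : Qb, s ^ 2 = 3 → σ₀ s = -s) := by
  have hτ5 : τ ^ 5 ∈ P.inertiaSubgroupIn ℚ := Subgroup.pow_mem _ hτ 5
  refine ⟨τ ^ 5, fun Q hQ => ?_, fun m hm ζ hζ => ?_, fun s hs => ?_⟩
  · exact inertia_pow_fix W hΔ hss hrel Nat.prime_three Nat.prime_five (by norm_num) (by norm_num)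
      hP hτ Q hQ
  · exact Fermat.Agent.ES.P36.ZetaUnr26.inertia_fixes_rootOfUnity Nat.prime_three hP hm hζ hτ5
  · -- a square root of `-1`
    obtain ⟨I, hI⟩ : ∃ I : Qb, I ^ 2 = -1 := IsAlgClosed.exists_pow_nat_eq (-1 : Qb) (by norm_num)
    have hI4 : I ^ 4 = 1 := by
      have : I ^ 4 = (I ^ 2) ^ 2 := by ring
      rw [this, hI]; norm_num
    have hτI : τ I = I :=
      Fermat.Agent.ES.P36.ZetaUnr26.inertia_fixes_rootOfUnity Nat.prime_three hP (by norm_num) hI4 hτ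
    have hI0 : I ≠ 0 := by
      rintro rfl
      norm_num at hI
    have h1 : (I * s) ^ 2 = -3 := by rw [mul_pow, hI, hs]; ring
    have h2 := hτ3 (I * s) h1
    rw [map_mul, hτI] at h2
    have h3 : τ s = -s := by
      have : I * τ s = I * (-s) := by rw [h2]; ring
      exact mul_left_cancel₀ hI0 this
    rw [pow_apply_of_neg h3 5]
    norm_num

open Polynomial in
/-- **Choice of the auxiliary prime, elliptic form.**  `W`, `τ` as in `exists_sigma_zero`; let
`x ∈ ℚ̄` be fixed by every element of `G_ℚ` which acts trivially on `W[5](ℚ̄)` and fixes all roots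
of unity of order prime to `3`.  If `x` is a root of the integer polynomial `F` and not a root of
`G`, then outside any finite set of primes there are a prime `p` and an integer `n` with
`p ∣ F(n)`, `p ∤ G(n)` and `3` not a square modulo `p`. -/
theorem exists_aux_prime (W : WeierstrassCurve ℤ) (hΔ : W.Δ ≠ 0) (hss : W.IsSemistableModel)
    (hrel : RelQbar W) {P : ValuationSubring Qb} (hP : P.LiesOverPrime 3) {τ : GQ}
    (hτ : τ ∈ P.inertiaSubgroupIn ℚ) (hτ3 : ∀ x : Qb, x ^ 2 = -3 → τ x = -x)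
    (F G : ℤ[X]) {x : Qb} (hF : aeval x F = 0) (hG : aeval x G ≠ 0)
    (hx : ∀ σ : GQ, (∀ Q : Pt W, 5 • Q = 0 → σ • Q = Q) →
      (∀ m : ℕ, ¬ 3 ∣ m → ∀ ζ : Qb, ζ ^ m = 1 → σ ζ = ζ) → σ x = x)
    (T : Finset ℕ) :
    ∃ p : ℕ, p.Prime ∧ p ∉ T ∧ ¬ IsSquare (((3 : ℤ) : ℤ) : ZMod p) ∧
      ∃ n : ℤ, (p : ℤ) ∣ F.eval n ∧ ¬ (p : ℤ) ∣ G.eval n := by
  obtain ⟨σ₀, h5, hζ, h3⟩ := exists_sigma_zero W hΔ hss hrel hP hτ hτ3
  obtain ⟨s, hs⟩ : ∃ s : Qb, s ^ 2 = 3 := IsAlgClosed.exists_pow_nat_eq (3 : Qb) (by norm_num)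
  have hs' : s ^ 2 = ((3 : ℤ) : Qb) := by rw [hs]; norm_num
  exact ChebPrime58.exists_prime_int_root F G hF hG (d := 3) (by norm_num) hs' σ₀
    (hx σ₀ h5 hζ) (h3 s hs) T

end Fermat.Agent.S52.C.SigmaZero58
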